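import Fermat.Agent.Poincare.Coefficient
import Fermat.Agent.HooleyRoots.Completion
import Mathlib.Analysis.SpecificLimits.Normed

/-!
# The bound of Kloosterman and Weil for the coefficients of cusp forms

On the line `y = 1 / n` the integral is `≪ min (n^(k-1)) ((√n c)^(k-1))`; splitting the moduli at
`√n` and using the average of the bound for Kloosterman sums gives
`a_n ≪ n^(k/2 - 1/4) (1 + log n)^6`.
-/

set_option autoImplicit false
set_option linter.style.haveILetI false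

noncomputable section

namespace FA.Poincare

open UpperHalfPlane hiding I
open Complex MeasureTheory CongruenceSubgroup Finset
open scoped MatrixGroups Real

variable {k : ℤ}

/-! ## The integral -/

theorem integral_inv_sq_add_sq {y : ℝ} (hy : 0 < y) : ∫ x : ℝ, (x ^ 2 + y ^ 2)⁻¹ = π / y := by
  simp only [inv_sq_add_sq hy]
  rw [integral_const_mul, Measure.integral_comp_div (fun t : ℝ => (1 + t ^ 2)⁻¹) y,
    integral_univ_inv_one_add_sq, smul_eq_mul, abs_of_pos hy]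
  field_simp

/-- `(1 + w) ^ p ≤ p ^ p e ^ w` for `p ≥ 1`. -/
theorem one_add_rpow_le {p w : ℝ} (hp : 1 ≤ p) (hw : 0 ≤ w) :
    (1 + w) ^ p ≤ p ^ p * Real.exp w := by
  have hp0 : 0 < p := lt_of_lt_of_le one_pos hp
  have h : 1 + w ≤ p * Real.exp (w / p) := by
    have := Real.add_one_le_exp (w / p)
    have h2 : p * (w / p + 1) ≤ p * Real.exp (w / p) := mul_le_mul_of_nonneg_left this hp0.le
    rw [mul_add, mul_div_cancel₀ _ hp0.ne'] at h2
    linarith
  refine (Real.rpow_le_rpow (by linarith) h hp0.le).trans_eq ?_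
  rw [Real.mul_rpow hp0.le (Real.exp_nonneg _), ← Real.exp_mul, div_mul_cancel₀ _ hp0.ne']

theorem norm_profile_le_shifted {k : ℤ} (hk : 2 ≤ k) (m n c : ℕ) {y : ℝ} (hy : 0 < y) (x : ℝ) :
    ‖profile k m n c y x‖ ≤ Real.exp (2 * π * n * y) * (((k : ℝ) / 2) ^ ((k : ℝ) / 2) *
      ((√(y ^ 2 + 2 * π * m * y / (c : ℝ) ^ 2)) ^ (2 - (k : ℝ)) *
        (x ^ 2 + √(y ^ 2 + 2 * π * m * y / (c : ℝ) ^ 2) ^ 2)⁻¹)) := by
  set A : ℝ := 2 * π * m * y / (c : ℝ) ^ 2 with hA
  have hA0 : 0 ≤ A := by positivity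
  set t := x ^ 2 + y ^ 2 with ht
  have ht0 : 0 < t := by positivity
  set Y := √(y ^ 2 + A)
  have hY : 0 < Y := Real.sqrt_pos.2 (by positivity)
  have hY2 : Y ^ 2 = y ^ 2 + A := Real.sq_sqrt (by positivity)
  have hk' : (2 : ℝ) ≤ k := by exact_mod_cast hk
  set p : ℝ := (k : ℝ) / 2 with hp
  have hp1 : 1 ≤ p := by linarith
  rw [norm_profile k m n c hy x,
    show (2 * π * m * y / ((c : ℝ) ^ 2 * t)) = A / t by rw [hA, div_div]]
  refine mul_le_mul_of_nonneg_left ?_ (Real.exp_nonneg _)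
  have h1 := one_add_rpow_le hp1 (div_nonneg hA0 ht0.le)
  rw [show 1 + A / t = (t + A) / t by field_simp, Real.div_rpow (by linarith) ht0.le] at h1
  have htA : 0 < t + A := by linarith
  calc t ^ (-(k : ℝ) / 2) * Real.exp (-(A / t))
      = ((t + A) ^ p / t ^ p) * ((t + A) ^ (-p) * Real.exp (-(A / t))) := by
        rw [show -(k : ℝ) / 2 = -p by rw [hp]; ring, Real.rpow_neg ht0.le, Real.rpow_neg htA.le]
        field_simp
    _ ≤ (p ^ p * Real.exp (A / t)) * ((t + A) ^ (-p) * Real.exp (-(A / t))) :=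
        mul_le_mul_of_nonneg_right h1 (by positivity)
    _ = p ^ p * (t + A) ^ (-p) := by
        rw [Real.exp_neg]
        field_simp
    _ ≤ _ := by
      refine mul_le_mul_of_nonneg_left ?_ (by positivity)
      rw [show t + A = x ^ 2 + Y ^ 2 by rw [hY2, ht]; ring,
        show -p = (2 - (k : ℝ)) / 2 + (-1 : ℝ) by rw [hp]; ring,
        Real.rpow_add (by positivity), Real.rpow_neg_one]
      refine mul_le_mul_of_nonneg_right ?_ (by positivity)
      refine (Real.rpow_le_rpow_of_nonpos (by positivity)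
        (le_add_of_nonneg_left (sq_nonneg x)) (by linarith)).trans_eq ?_
      rw [← Real.rpow_two, ← Real.rpow_mul hY.le]
      ring_nf

/-- `J(c)` on the line `y = 1 / n`. -/
theorem norm_lineIntegral_le (hk : 2 ≤ k) {m n c : ℕ} (hm : m ≠ 0) (hn : n ≠ 0) (hc : c ≠ 0) :
    ‖lineIntegral k m n c (1 / n)‖ ≤ Real.exp (2 * π) * ((k : ℝ) / 2) ^ ((k : ℝ) / 2) * π *
      min ((n : ℝ) ^ ((k : ℝ) - 1)) ((√n * c) ^ ((k : ℝ) - 1)) := by
  have hn0 : (0 : ℝ) < n := by exact_mod_cast hn.bot_lt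
  have hc0 : (0 : ℝ) < c := by exact_mod_cast hc.bot_lt
  have hm1 : (1 : ℝ) ≤ m := by exact_mod_cast hm.bot_lt
  have hk' : (2 : ℝ) ≤ k := by exact_mod_cast hk
  set y : ℝ := 1 / n with hy
  have hy0 : 0 < y := by positivity
  set Y := √(y ^ 2 + 2 * π * m * y / (c : ℝ) ^ 2)
  have hY : 0 < Y := Real.sqrt_pos.2 (by positivity)
  have hi := integrable_inv_sq_add_sq hY
  refine (norm_integral_le_of_norm_le (((hi.const_mul _).const_mul _).const_mul _)
    (Filter.Eventually.of_forall fun x => norm_profile_le_shifted hk m n c hy0 x)).trans ?_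
  rw [integral_const_mul, integral_const_mul, integral_const_mul, integral_inv_sq_add_sq hY,
    show 2 * π * n * y = 2 * π by rw [hy]; field_simp]
  rw [show Y ^ (2 - (k : ℝ)) * (π / Y) = π * Y ^ (1 - (k : ℝ)) by
    rw [show (2 - (k : ℝ)) = (1 - k) + 1 by ring, Real.rpow_add hY, Real.rpow_one]
    field_simp]
  rw [← mul_assoc, ← mul_assoc]
  refine mul_le_mul_of_nonneg_left (le_min ?_ ?_) (by positivity)
  · calc Y ^ (1 - (k : ℝ)) ≤ y ^ (1 - (k : ℝ)) := by
          refine Real.rpow_le_rpow_of_nonpos hy0 ?_ (by linarith)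
          exact Real.le_sqrt_of_sq_le (le_add_of_nonneg_right (by positivity))
      _ = (n : ℝ) ^ ((k : ℝ) - 1) := by
          rw [hy, one_div, Real.inv_rpow hn0.le, ← Real.rpow_neg hn0.le, neg_sub]
  · calc Y ^ (1 - (k : ℝ)) ≤ (1 / (√n * c)) ^ (1 - (k : ℝ)) := by
          refine Real.rpow_le_rpow_of_nonpos (by positivity) (Real.le_sqrt_of_sq_le ?_)
            (by linarith)
          rw [div_pow, one_pow, mul_pow, Real.sq_sqrt hn0.le]
          refine le_add_of_nonneg_of_le (sq_nonneg y) ?_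
          rw [hy, mul_one_div, div_div]
          gcongr
          nlinarith [Real.two_le_pi]
      _ = (√n * c) ^ ((k : ℝ) - 1) := by
          rw [one_div, Real.inv_rpow (by positivity), ← Real.rpow_neg (by positivity), neg_sub]

/-! ## The sum over the moduli -/

/-- The majorant of the term of modulus `c`. -/
def modTerm (k : ℤ) (n c : ℕ) : ℝ :=
  HooleyRoots.weight c * (c : ℝ) ^ (-(k : ℝ)) *
    min ((n : ℝ) ^ ((k : ℝ) - 1)) ((√n * c) ^ ((k : ℝ) - 1))

theorem modTerm_nonneg (k : ℤ) (n c : ℕ) : 0 ≤ modTerm k n c :=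
  mul_nonneg (mul_nonneg (HooleyRoots.weight_nonneg _) (by positivity))
    (le_min (by positivity) (by positivity))

theorem sum_dyadic (f : ℕ → ℝ) : ∀ J : ℕ,
    ∑ c ∈ Ico 1 (2 ^ J), f c = ∑ j ∈ range J, ∑ c ∈ Ico (2 ^ j) (2 ^ (j + 1)), f c
  | 0 => by simp
  | J + 1 => by
    rw [sum_range_succ, ← sum_dyadic f J, sum_Ico_consecutive f Nat.one_le_two_pow
      (Nat.pow_le_pow_right two_pos J.le_succ)]

theorem exists_sum_block_le : ∃ C, 0 < C ∧ ∀ j : ℕ,
    ∑ c ∈ Ico (2 ^ j) (2 ^ (j + 1)), HooleyRoots.weight c ≤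
      C * (2 : ℝ) ^ (3 / 2 * (j : ℝ)) * ((j : ℝ) + 2) ^ 6 := by
  obtain ⟨C, hC0, hC⟩ := HooleyRoots.exists_sum_weight_le
  refine ⟨C * (2 * √2), by positivity, fun j => ?_⟩
  refine (sum_le_sum_of_subset_of_nonneg (fun c hc => ?_) fun c _ _ =>
    HooleyRoots.weight_nonneg c).trans ((hC (2 ^ (j + 1))).trans ?_)
  · rw [mem_Ico] at hc
    exact mem_Icc.2 ⟨Nat.one_le_two_pow.trans hc.1, hc.2.le⟩
  rw [Nat.cast_pow, Nat.cast_ofNat]
  have h2 : (2 : ℝ) ^ (j + 1) * √((2 : ℝ) ^ (j + 1)) =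
      (2 * √2) * (2 : ℝ) ^ (3 / 2 * (j : ℝ)) := by
    rw [Real.sqrt_eq_rpow, Real.sqrt_eq_rpow, ← Real.rpow_natCast, ← Real.rpow_mul two_pos.le,
      ← Real.rpow_add two_pos]
    nth_rw 3 [← Real.rpow_one 2]
    rw [← Real.rpow_add two_pos, ← Real.rpow_add two_pos]
    push_cast
    ring_nf
  rw [h2, ← mul_assoc C]
  refine mul_le_mul_of_nonneg_left (pow_le_pow_left₀ ?_ ?_ 6) (by positivity)
  · have := Real.log_nonneg (one_le_pow₀ one_le_two : (1 : ℝ) ≤ 2 ^ (j + 1))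
    linarith
  · rw [Real.log_pow]
    have := Real.log_two_lt_d9
    push_cast
    nlinarith [(Nat.cast_nonneg j : (0 : ℝ) ≤ j), Real.log_two_gt_d9]

theorem exists_sum_modTerm_le (hk : 3 ≤ k) : ∃ C, 0 < C ∧ ∀ n J : ℕ, 1 ≤ n →
    ∑ c ∈ Ico 1 (2 ^ J), modTerm k n c ≤
      C * (n : ℝ) ^ ((k : ℝ) / 2 - 1 / 4) * (1 + Real.log n) ^ 6 := by
  obtain ⟨C, hC0, hC⟩ := exists_sum_block_le
  have hk' : (3 : ℝ) ≤ k := by exact_mod_cast hk
  set r : ℝ := (2 : ℝ) ^ (1 / 2 : ℝ) with hr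
  have hr1 : 1 < r := Real.one_lt_rpow one_lt_two (by norm_num)
  set s : ℝ := (2 : ℝ) ^ (-(3 / 2) : ℝ) with hs
  have hs1 : ‖s‖ < 1 := by
    rw [Real.norm_of_nonneg (by positivity)]
    exact Real.rpow_lt_one_of_one_lt_of_neg one_lt_two (by norm_num)
  have hs0 : s ≠ 0 := (Real.rpow_pos_of_pos two_pos _).ne'
  have hsum : Summable fun i : ℕ => ((i : ℝ) + 2) ^ 6 * s ^ i := by
    have h := ((summable_pow_mul_geometric_of_norm_lt_one 6 hs1).comp_injective
      (add_left_injective 2)).mul_left (s ^ 2)⁻¹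
    refine h.congr fun i => ?_
    simp only [Function.comp_apply, pow_add]
    push_cast
    field_simp
  set T : ℝ := ∑' i : ℕ, ((i : ℝ) + 2) ^ 6 * s ^ i
  have hT : 0 ≤ T := tsum_nonneg fun i => by positivity
  refine ⟨C * (r / (r - 1) + T) * 2 ^ 6, by
    have : 0 < r - 1 := sub_pos.2 hr1
    positivity, fun n J hn => ?_⟩
  have hn0 : (0 : ℝ) < n := by exact_mod_cast hn
  set j₀ := Nat.log 4 n
  have hlo : ((4 : ℝ) ^ j₀) ≤ n := by exact_mod_cast Nat.pow_log_le_self 4 (by omega)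
  have hhi : (n : ℝ) < (4 : ℝ) ^ (j₀ + 1) := by
    exact_mod_cast Nat.lt_pow_succ_log_self (by norm_num) n
  have hlog : (j₀ : ℝ) + 2 ≤ 2 * (1 + Real.log n) := by
    have h := Real.log_le_log (by positivity) hlo
    rw [Real.log_pow, show (4 : ℝ) = 2 ^ 2 by norm_num, Real.log_pow] at h
    push_cast at h
    nlinarith [Real.log_two_gt_d9, (Nat.cast_nonneg j₀ : (0 : ℝ) ≤ j₀),
      Real.log_natCast_nonneg n]
  set b : ℕ → ℝ := fun j =>
    if j ≤ j₀ then C * ((j₀ : ℝ) + 2) ^ 6 * (n : ℝ) ^ (((k : ℝ) - 1) / 2) * r ^ j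
    else C * ((j₀ : ℝ) + 2) ^ 6 * (n : ℝ) ^ ((k : ℝ) / 2 - 1 / 4) *
      (((j - (j₀ + 1) : ℕ) : ℝ) + 2) ^ 6 * s ^ (j - (j₀ + 1)) with hb
  have hblock : ∀ j, ∑ c ∈ Ico (2 ^ j) (2 ^ (j + 1)), modTerm k n c ≤ b j := by
    intro j
    by_cases hj : j ≤ j₀
    · rw [hb]
      simp only [if_pos hj]
      calc ∑ c ∈ Ico (2 ^ j) (2 ^ (j + 1)), modTerm k n c
          ≤ ∑ c ∈ Ico (2 ^ j) (2 ^ (j + 1)), HooleyRoots.weight c *
              ((n : ℝ) ^ (((k : ℝ) - 1) / 2) * (2 : ℝ) ^ (-(j : ℝ))) := by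
            refine sum_le_sum fun c hc => ?_
            rw [mem_Ico] at hc
            have hc' : (2 : ℝ) ^ j ≤ c := by exact_mod_cast hc.1
            have hc0 : (0 : ℝ) < c := lt_of_lt_of_le (by positivity) hc'
            rw [modTerm, mul_assoc]
            refine mul_le_mul_of_nonneg_left ((mul_le_mul_of_nonneg_left (min_le_right _ _)
              (by positivity)).trans ?_) (HooleyRoots.weight_nonneg _)
            rw [Real.mul_rpow (by positivity) hc0.le, Real.sqrt_eq_rpow, ← Real.rpow_mul hn0.le,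
              mul_left_comm, ← Real.rpow_add hc0, show -(k : ℝ) + ((k : ℝ) - 1) = -1 by ring,
              Real.rpow_neg_one, show 1 / 2 * ((k : ℝ) - 1) = ((k : ℝ) - 1) / 2 by ring]
            refine mul_le_mul_of_nonneg_left ?_ (by positivity)
            rw [Real.rpow_neg two_pos.le, Real.rpow_natCast]
            exact inv_anti₀ (by positivity) hc'
        _ ≤ (C * (2 : ℝ) ^ (3 / 2 * (j : ℝ)) * ((j : ℝ) + 2) ^ 6) *
              ((n : ℝ) ^ (((k : ℝ) - 1) / 2) * (2 : ℝ) ^ (-(j : ℝ))) := by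
            rw [← sum_mul]
            exact mul_le_mul_of_nonneg_right (hC j) (by positivity)
        _ = C * ((j : ℝ) + 2) ^ 6 * (n : ℝ) ^ (((k : ℝ) - 1) / 2) *
              ((2 : ℝ) ^ (3 / 2 * (j : ℝ)) * (2 : ℝ) ^ (-(j : ℝ))) := by ring
        _ ≤ _ := by
            rw [← Real.rpow_add two_pos, hr, ← Real.rpow_natCast ((2 : ℝ) ^ (1 / 2 : ℝ)) j,
              ← Real.rpow_mul two_pos.le, show 3 / 2 * (j : ℝ) + -(j : ℝ) = 1 / 2 * j by ring]
            gcongr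
    · rw [hb]
      simp only [if_neg hj]
      obtain ⟨i, rfl⟩ : ∃ i, j = j₀ + 1 + i := ⟨j - (j₀ + 1), by omega⟩
      rw [Nat.add_sub_cancel_left]
      set j := j₀ + 1 + i with hji
      calc ∑ c ∈ Ico (2 ^ j) (2 ^ (j + 1)), modTerm k n c
          ≤ ∑ c ∈ Ico (2 ^ j) (2 ^ (j + 1)), HooleyRoots.weight c *
              ((n : ℝ) ^ ((k : ℝ) - 1) * (2 : ℝ) ^ (-((k : ℝ) * j))) := by
            refine sum_le_sum fun c hc => ?_
            rw [mem_Ico] at hc
            have hc' : (2 : ℝ) ^ j ≤ c := by exact_mod_cast hc.1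
            rw [modTerm, mul_assoc]
            refine mul_le_mul_of_nonneg_left ((mul_le_mul_of_nonneg_left (min_le_left _ _)
              (by positivity)).trans ?_) (HooleyRoots.weight_nonneg _)
            rw [mul_comm]
            refine mul_le_mul_of_nonneg_left ((Real.rpow_le_rpow_of_nonpos (by positivity) hc'
              (by linarith)).trans_eq ?_) (by positivity)
            rw [← Real.rpow_natCast, ← Real.rpow_mul two_pos.le]
            ring_nf
        _ ≤ (C * (2 : ℝ) ^ (3 / 2 * (j : ℝ)) * ((j : ℝ) + 2) ^ 6) *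
              ((n : ℝ) ^ ((k : ℝ) - 1) * (2 : ℝ) ^ (-((k : ℝ) * j))) := by
            rw [← sum_mul]
            exact mul_le_mul_of_nonneg_right (hC j) (by positivity)
        _ = C * ((j : ℝ) + 2) ^ 6 * (n : ℝ) ^ ((k : ℝ) - 1) *
              ((2 : ℝ) ^ (3 / 2 * (j : ℝ)) * (2 : ℝ) ^ (-((k : ℝ) * j))) := by ring
        _ ≤ C * (((j₀ : ℝ) + 2) * ((i : ℝ) + 2)) ^ 6 * (n : ℝ) ^ ((k : ℝ) - 1) *
              ((n : ℝ) ^ (3 / 4 - (k : ℝ) / 2) * s ^ i) := by
            rw [← Real.rpow_add two_pos]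
            have h1 : (2 : ℝ) ^ (3 / 2 * (j : ℝ) + -((k : ℝ) * j)) ≤
                (n : ℝ) ^ (3 / 4 - (k : ℝ) / 2) * s ^ i := by
              have e : 3 / 2 * (j : ℝ) + -((k : ℝ) * j) =
                  (2 * ((j₀ + 1 : ℕ) : ℝ)) * (3 / 4 - (k : ℝ) / 2) + (3 / 2 - (k : ℝ)) * i := by
                rw [hji]; push_cast; ring
              rw [e, Real.rpow_add two_pos, Real.rpow_mul two_pos.le _ (3 / 4 - (k : ℝ) / 2), hs,
                ← Real.rpow_natCast ((2 : ℝ) ^ (-(3 / 2) : ℝ)) i,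
                ← Real.rpow_mul two_pos.le (-(3 / 2) : ℝ) (i : ℝ)]
              refine mul_le_mul (Real.rpow_le_rpow_of_nonpos hn0 ?_ (by linarith))
                (Real.rpow_le_rpow_of_exponent_le one_le_two
                  (show (3 / 2 - (k : ℝ)) * i ≤ -(3 / 2) * i by
                    nlinarith [(Nat.cast_nonneg i : (0 : ℝ) ≤ i)]))
                (by positivity) (by positivity)
              rw [Real.rpow_mul two_pos.le, Real.rpow_natCast, Real.rpow_two]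
              norm_num
              exact hhi.le
            gcongr
            rw [hji]
            push_cast
            nlinarith [(Nat.cast_nonneg i : (0 : ℝ) ≤ i), (Nat.cast_nonneg j₀ : (0 : ℝ) ≤ j₀)]
        _ = _ := by
            rw [mul_pow, show (k : ℝ) / 2 - 1 / 4 = ((k : ℝ) - 1) + (3 / 4 - (k : ℝ) / 2) by ring,
              Real.rpow_add hn0]
            ring
  rw [sum_dyadic]
  refine (sum_le_sum fun j _ => hblock j).trans ?_
  have hb0 : ∀ j, 0 ≤ b j := fun j => by rw [hb]; dsimp only; split <;> positivity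
  refine (sum_le_sum_of_subset_of_nonneg (range_subset_range.2 (le_max_left J (j₀ + 1)))
    fun j _ _ => hb0 j).trans ?_
  obtain ⟨L, hL⟩ : ∃ L, max J (j₀ + 1) = j₀ + 1 + L := ⟨max J (j₀ + 1) - (j₀ + 1), by omega⟩
  rw [hL, sum_range_add]
  have h1 : ∑ j ∈ range (j₀ + 1), b j ≤
      C * ((j₀ : ℝ) + 2) ^ 6 * (r / (r - 1)) * (n : ℝ) ^ ((k : ℝ) / 2 - 1 / 4) := by
    rw [sum_congr rfl fun j hj => show b j = C * ((j₀ : ℝ) + 2) ^ 6 *
      (n : ℝ) ^ (((k : ℝ) - 1) / 2) * r ^ j from if_pos (Nat.lt_succ_iff.1 (mem_range.1 hj)),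
      ← mul_sum, geom_sum_eq hr1.ne']
    have hrj : r ^ j₀ ≤ (n : ℝ) ^ (1 / 4 : ℝ) := by
      refine le_trans (le_of_eq ?_) (Real.rpow_le_rpow (by positivity) hlo (by norm_num))
      rw [hr, ← Real.rpow_natCast ((2 : ℝ) ^ (1 / 2 : ℝ)), ← Real.rpow_mul two_pos.le,
        show (4 : ℝ) = 2 ^ (2 : ℝ) by norm_num, ← Real.rpow_natCast, ← Real.rpow_mul two_pos.le,
        ← Real.rpow_mul two_pos.le]
      ring_nf
    calc C * ((j₀ : ℝ) + 2) ^ 6 * (n : ℝ) ^ (((k : ℝ) - 1) / 2) * ((r ^ (j₀ + 1) - 1) / (r - 1))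
        ≤ C * ((j₀ : ℝ) + 2) ^ 6 * (n : ℝ) ^ (((k : ℝ) - 1) / 2) *
            ((n : ℝ) ^ (1 / 4 : ℝ) * (r / (r - 1))) := by
          refine mul_le_mul_of_nonneg_left ?_ (by positivity)
          rw [pow_succ, mul_div_assoc']
          gcongr
          nlinarith [mul_le_mul_of_nonneg_right hrj (by linarith : (0 : ℝ) ≤ r), hr1]
      _ = _ := by
          rw [show (k : ℝ) / 2 - 1 / 4 = ((k : ℝ) - 1) / 2 + 1 / 4 by ring, Real.rpow_add hn0]
          ring
  have h2 : ∑ i ∈ range L, b (j₀ + 1 + i) ≤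
      C * ((j₀ : ℝ) + 2) ^ 6 * T * (n : ℝ) ^ ((k : ℝ) / 2 - 1 / 4) := by
    have e : ∀ i, b (j₀ + 1 + i) = C * ((j₀ : ℝ) + 2) ^ 6 * (n : ℝ) ^ ((k : ℝ) / 2 - 1 / 4) *
        (((i : ℝ) + 2) ^ 6 * s ^ i) := fun i => by
      rw [hb]
      dsimp only
      rw [if_neg (by omega), Nat.add_sub_cancel_left]
      ring
    simp only [e]
    rw [← mul_sum]
    refine (mul_le_mul_of_nonneg_left (hsum.sum_le_tsum _ fun i _ => by positivity)
      (by positivity)).trans_eq ?_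
    ring
  refine (add_le_add h1 h2).trans ?_
  calc C * ((j₀ : ℝ) + 2) ^ 6 * (r / (r - 1)) * (n : ℝ) ^ ((k : ℝ) / 2 - 1 / 4) +
        C * ((j₀ : ℝ) + 2) ^ 6 * T * (n : ℝ) ^ ((k : ℝ) / 2 - 1 / 4)
      = C * (r / (r - 1) + T) * (n : ℝ) ^ ((k : ℝ) / 2 - 1 / 4) * ((j₀ : ℝ) + 2) ^ 6 := by ring
    _ ≤ C * (r / (r - 1) + T) * (n : ℝ) ^ ((k : ℝ) / 2 - 1 / 4) * (2 * (1 + Real.log n)) ^ 6 := by
        have : 0 < r - 1 := sub_pos.2 hr1
        gcongr
    _ = _ := by ring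

/-! ## The coefficients -/

variable {N : ℕ} [NeZero N]

/-- The bound for one form. -/
def IsKloostermanBounded (f : CuspForm (Gamma0 N) k) : Prop :=
  ∃ C : ℝ, ∀ n : ℕ, 1 ≤ n →
    ‖(qExpansion 1 f).coeff n‖ ≤ C * (n : ℝ) ^ ((k : ℝ) / 2 - 1 / 4) * (1 + Real.log n) ^ 6

theorem isKloostermanBounded_cuspForm (hk : 3 ≤ k) {m : ℕ} (hm : m ≠ 0) :
    IsKloostermanBounded (cuspForm N hk hm) := by
  obtain ⟨C, hC0, hC⟩ := exists_sum_modTerm_le hk
  have hk' : (3 : ℝ) ≤ k := by exact_mod_cast hk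
  set P : ℝ := Real.exp (2 * π) * ((k : ℝ) / 2) ^ ((k : ℝ) / 2) * π with hP
  have hP0 : 0 ≤ P := by positivity
  refine ⟨2 + 2 * (√m * P * C), fun n hn => ?_⟩
  have hn0 : (0 : ℝ) < n := by exact_mod_cast hn
  have hy : (0 : ℝ) < 1 / n := by positivity
  have h := coefficient (N := N) hk hm n hy
  have heps : ‖(1 + (-1) ^ k : ℂ)‖ ≤ 2 := by
    refine (norm_add_le _ _).trans ?_
    rw [norm_one, norm_zpow, norm_neg, norm_one, one_zpow]
    norm_num
  have hterm : ∀ c : moduli N, ‖(1 + (-1) ^ k : ℂ) * ((((c : ℕ) : ℂ) ^ (-k)) *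
      HooleyRoots.klSum c (n : ZMod c) (m : ZMod c) * lineIntegral k m n c (1 / n))‖ ≤
      2 * (√m * P) * modTerm k n c := by
    intro c
    rw [norm_mul, norm_mul, norm_mul, norm_zpow, Complex.norm_natCast, ← Real.rpow_intCast,
      Int.cast_neg]
    have h1 : ‖HooleyRoots.klSum c (n : ZMod c) (m : ZMod c)‖ ≤
        HooleyRoots.weight c * √m := by
      rw [show (m : ZMod c) = ((m : ℤ) : ZMod c) by simp]
      refine (HooleyRoots.norm_klSum_le c _ _).trans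
        (mul_le_mul_of_nonneg_left (Real.sqrt_le_sqrt ?_) (HooleyRoots.weight_nonneg _))
      exact_mod_cast Nat.le_of_dvd hm.bot_lt (Nat.gcd_dvd_left _ _)
    have h2 := norm_lineIntegral_le (k := k) (by linarith) hm (by omega : n ≠ 0) (NeZero.ne (c : ℕ))
    calc ‖(1 + (-1) ^ k : ℂ)‖ * (((c : ℕ) : ℝ) ^ (-(k : ℝ)) *
          ‖HooleyRoots.klSum c (n : ZMod c) (m : ZMod c)‖ * ‖lineIntegral k m n c (1 / n)‖)
        ≤ 2 * (((c : ℕ) : ℝ) ^ (-(k : ℝ)) * (HooleyRoots.weight c * √m) *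
            (P * min ((n : ℝ) ^ ((k : ℝ) - 1)) ((√n * (c : ℕ)) ^ ((k : ℝ) - 1)))) := by
          have := HooleyRoots.weight_nonneg (c : ℕ)
          gcongr
      _ = _ := by rw [modTerm]; ring
  have hfin : ∀ s : Finset (moduli N), ∑ c ∈ s, 2 * (√m * P) * modTerm k n c ≤
      2 * (√m * P * C) * (n : ℝ) ^ ((k : ℝ) / 2 - 1 / 4) * (1 + Real.log n) ^ 6 := by
    intro s
    rw [← mul_sum]
    set s' := s.map ⟨Subtype.val, Subtype.val_injective⟩
    refine (mul_le_mul_of_nonneg_left ?_ (by positivity)).trans_eq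
      (show 2 * (√m * P) * (C * (n : ℝ) ^ ((k : ℝ) / 2 - 1 / 4) * (1 + Real.log n) ^ 6) = _ by ring)
    refine le_trans ?_ (hC n (s'.sup id + 1) hn)
    rw [show ∑ c ∈ s, modTerm k n c = ∑ c ∈ s', modTerm k n c by rw [Finset.sum_map]; rfl]
    refine sum_le_sum_of_subset_of_nonneg (fun c hc => ?_) fun c _ _ => modTerm_nonneg k n c
    obtain ⟨d, -, rfl⟩ := mem_map.1 hc
    refine mem_Ico.2 ⟨d.2.1, lt_of_lt_of_le ?_ (Nat.lt_two_pow_self).le⟩
    exact Nat.lt_succ_of_le (Finset.le_sup (f := id) hc)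
  have hS : Summable fun c : moduli N => 2 * (√m * P) * modTerm k n c :=
    summable_of_sum_le (fun c => mul_nonneg (by positivity) (modTerm_nonneg _ _ _)) hfin
  have h3 : ‖(qExpansion 1 (cuspForm N hk hm)).coeff n -
      (1 + (-1) ^ k) * if m = n then 1 else 0‖ ≤
      2 * (√m * P * C) * (n : ℝ) ^ ((k : ℝ) / 2 - 1 / 4) * (1 + Real.log n) ^ 6 := by
    rw [← h.tsum_eq]
    exact (tsum_of_norm_bounded hS.hasSum hterm).trans (hS.tsum_le_of_sum_le hfin)
  have h4 : ‖(1 + (-1) ^ k : ℂ) * if m = n then 1 else 0‖ ≤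
      2 * (n : ℝ) ^ ((k : ℝ) / 2 - 1 / 4) * (1 + Real.log n) ^ 6 := by
    have h5 : (1 : ℝ) ≤ (n : ℝ) ^ ((k : ℝ) / 2 - 1 / 4) :=
      Real.one_le_rpow (by exact_mod_cast hn) (by linarith)
    have h6 : (1 : ℝ) ≤ (1 + Real.log n) ^ 6 :=
      one_le_pow₀ (le_add_of_nonneg_right (Real.log_natCast_nonneg n))
    rw [norm_mul, mul_assoc]
    refine mul_le_mul heps ?_ (norm_nonneg _) zero_le_two
    refine le_trans ?_ (one_le_mul_of_one_le_of_one_le h5 h6)
    split <;> simp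
  have := norm_le_norm_add_norm_sub' ((qExpansion 1 (cuspForm N hk hm)).coeff n)
    ((1 + (-1) ^ k : ℂ) * if m = n then 1 else 0)
  linarith [this, h3, h4]

theorem isKloostermanBounded (hk : 3 ≤ k) (f : CuspForm (Gamma0 N) k) :
    IsKloostermanBounded f := by
  have hper : (1 : ℝ) ∈ (Subgroup.map (Matrix.SpecialLinearGroup.mapGL ℝ)
      (Gamma0 N)).strictPeriods := one_mem_strictPeriods_Gamma0 N
  have hf : f ∈ Submodule.span ℂ
      (Set.range fun m : ℕ => cuspForm N hk (Nat.succ_ne_zero m)) := by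
    rw [span_poincare hk]
    trivial
  induction hf using Submodule.span_induction with
  | mem g hg =>
    obtain ⟨m, rfl⟩ := hg
    exact isKloostermanBounded_cuspForm hk _
  | zero => exact ⟨0, fun n _ => by simp [qExpansion_zero]⟩
  | add g₁ g₂ _ _ h₁ h₂ =>
    obtain ⟨C₁, h₁⟩ := h₁
    obtain ⟨C₂, h₂⟩ := h₂
    refine ⟨C₁ + C₂, fun n hn => ?_⟩
    rw [FunLike.coe_add, ModularForm.qExpansion_add one_pos hper g₁ g₂, map_add]
    exact (norm_add_le _ _).trans (by linarith [h₁ n hn, h₂ n hn])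
  | smul a g _ h =>
    obtain ⟨C, h⟩ := h
    refine ⟨‖a‖ * C, fun n hn => ?_⟩
    rw [FunLike.coe_smul, ModularForm.qExpansion_smul one_pos hper a g, PowerSeries.coeff_smul,
      smul_eq_mul, norm_mul, mul_assoc, mul_assoc]
    exact mul_le_mul_of_nonneg_left (by linarith [h n hn]) (norm_nonneg _)

end FA.Poincare

end
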