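import Fermat.Agent.Poincare.Strip
import Fermat.Agent.Valence.FiniteDimensional
import Fermat.Prelude.Thm_CongruenceSubgroup_one_mem_strictPeriods_Gamma0
import Mathlib.NumberTheory.ModularForms.Petersson
import Mathlib.NumberTheory.ModularForms.Bounds
import Mathlib.Analysis.SpecialFunctions.Gamma.Basic
import Mathlib.Analysis.SpecialFunctions.Gaussian.GaussianIntegral
import Mathlib.Analysis.InnerProductSpace.Projection.Submodule

/-!
# The Petersson product with a Poincaré series, and spanning

Unfolding gives `⟨P_m, f⟩ = 2 Γ(k - 1) (4 π m) ^ (1 - k) a_m(f)`; as the Petersson product is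
positive definite and the space is finite dimensional, the Poincaré series span.
-/

set_option autoImplicit false
set_option linter.style.haveILetI false

noncomputable section

namespace FA.Poincare

open UpperHalfPlane hiding I
open MeasureTheory ModularGroup CongruenceSubgroup Set
open scoped Matrix MatrixGroups Modular ModularForm Pointwise Real ComplexConjugate

local notation "Γ₁" => SL(2, ℤ)

variable {N : ℕ} {k : ℤ}

/-- The coset representative. -/
def rep (x : Γ₁ ⧸ Gamma0 N) : Γ₁ := (Quotient.out x)⁻¹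

theorem slash_of_mem (f : CuspForm (Gamma0 N) k) {g : Γ₁} (hg : g ∈ Gamma0 N) :
    (⇑f) ∣[k] g = ⇑f :=
  SlashInvariantFormClass.slash_action_eq f _ ⟨g, hg, rfl⟩

theorem lift_mem {v : Fin 2 → ℤ} (hv : v ∈ rows N) : lift v ∈ Gamma0 N := by
  rw [mem_Gamma0_iff, lift_row hv.1]
  exact hv.2

theorem T_zpow_mem (n : ℤ) : T ^ n ∈ Gamma0 N := by
  rw [mem_Gamma0_iff]
  simp [coe_T_zpow]

theorem continuous_petersson (f g : CuspForm (Gamma0 N) k) : Continuous (petersson k f g) :=
  petersson_continuous k (ModularFormClass.holo f).continuous (ModularFormClass.holo g).continuous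

theorem integrableOn_fdo_of_bound {F : ℍ → ℂ} (hc : Continuous F) {C : ℝ}
    (hC : ∀ z, ‖F z‖ ≤ C) (g : Γ₁) : IntegrableOn (fun z => F (g • z)) fdo :=
  Integrable.of_bound ((hc.comp (continuous_const_smul
      (Matrix.SpecialLinearGroup.mapGL ℝ g : GL (Fin 2) ℝ))).aestronglyMeasurable) C
    (Filter.Eventually.of_forall fun _ => hC _)

variable [NeZero N]

/-- The Petersson product on `S_k(Γ₀(N))`, conjugate linear in the first argument. -/
def pairing (f g : CuspForm (Gamma0 N) k) : ℂ :=
  letI := Fintype.ofFinite (Γ₁ ⧸ Gamma0 N)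
  ∑ x : Γ₁ ⧸ Gamma0 N, ∫ z in fdo, petersson k f g (rep x • z)

theorem integrableOn_pairing (f g : CuspForm (Gamma0 N) k) (h : Γ₁) :
    IntegrableOn (fun z => petersson k f g (h • z)) fdo := by
  obtain ⟨C, hC⟩ := CuspFormClass.petersson_bounded_left k _ f g
  exact integrableOn_fdo_of_bound (continuous_petersson f g) hC h

theorem pairing_symm (f g : CuspForm (Gamma0 N) k) : conj (pairing g f) = pairing f g := by
  simp only [pairing, map_sum, ← integral_conj]
  refine Finset.sum_congr rfl fun x _ => integral_congr_ae (Filter.Eventually.of_forall fun z => ?_)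
  exact (petersson_symm k g f _).symm

theorem pairing_add_left (f g h : CuspForm (Gamma0 N) k) :
    pairing (f + g) h = pairing f h + pairing g h := by
  simp only [pairing, ← Finset.sum_add_distrib]
  refine Finset.sum_congr rfl fun x _ => ?_
  rw [← integral_add (integrableOn_pairing f h _) (integrableOn_pairing g h _)]
  refine integral_congr_ae (Filter.Eventually.of_forall fun z => ?_)
  simp only [petersson, FunLike.coe_add, Pi.add_apply, map_add]
  ring

theorem pairing_smul_left (c : ℂ) (f g : CuspForm (Gamma0 N) k) :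
    pairing (c • f) g = conj c * pairing f g := by
  simp only [pairing, Finset.mul_sum, ← integral_const_mul]
  refine Finset.sum_congr rfl fun x _ => integral_congr_ae (Filter.Eventually.of_forall fun z => ?_)
  simp only [petersson, FunLike.coe_smul, Pi.smul_apply, smul_eq_mul, map_mul]
  ring

/-- The density `‖f‖² y ^ k`. -/
def absSq (f : CuspForm (Gamma0 N) k) (z : ℍ) : ℝ := Complex.normSq (f z) * z.im ^ k

omit [NeZero N] in
theorem petersson_self (f : CuspForm (Gamma0 N) k) (z : ℍ) :
    petersson k f f z = (absSq f z : ℂ) := by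
  simp [absSq, petersson, Complex.normSq_eq_conj_mul_self]

omit [NeZero N] in
theorem absSq_nonneg (f : CuspForm (Gamma0 N) k) (z : ℍ) : 0 ≤ absSq f z :=
  mul_nonneg (Complex.normSq_nonneg _) (zpow_nonneg z.im_pos.le _)

theorem pairing_self (f : CuspForm (Gamma0 N) k) :
    pairing f f = ((letI := Fintype.ofFinite (Γ₁ ⧸ Gamma0 N)
      ∑ x : Γ₁ ⧸ Gamma0 N, ∫ z in fdo, absSq f (rep x • z) : ℝ) : ℂ) := by
  simp only [pairing, petersson_self, integral_complex_ofReal, Complex.ofReal_sum]

theorem pairing_definite (f : CuspForm (Gamma0 N) k) (h0 : pairing f f = 0) : f = 0 := by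
  rw [pairing_self, Complex.ofReal_eq_zero] at h0
  have hrc : Continuous (absSq f) :=
    (Complex.continuous_normSq.comp (ModularFormClass.holo f).continuous).mul
      (continuous_im.zpow₀ k fun z => .inl z.im_ne_zero)
  have hzero : ∀ x : Γ₁ ⧸ Gamma0 N, ∀ z ∈ fd, absSq f (rep x • z) = 0 := by
    intro x
    letI := Fintype.ofFinite (Γ₁ ⧸ Gamma0 N)
    have hx := (Finset.sum_eq_zero_iff_of_nonneg fun y _ =>
      setIntegral_nonneg isOpen_fdo.measurableSet fun z _ => absSq_nonneg f _).mp h0 x
        (Finset.mem_univ x)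
    have hc : Continuous fun z => absSq f (rep x • z) := by
      simp only [Petersson.sl_smul_eq]
      exact hrc.comp (continuous_const_smul _)
    have hint : IntegrableOn (fun z => absSq f (rep x • z)) fdo := by
      have h := (integrableOn_pairing f f (rep x)).re
      simp only [petersson_self, RCLike.re_to_complex, Complex.ofReal_re] at h
      exact h
    rw [setIntegral_eq_zero_iff_of_nonneg_ae (Filter.Eventually.of_forall fun z => absSq_nonneg f _)
      hint] at hx
    have hon := Measure.eqOn_open_of_ae_eq hx isOpen_fdo hc.continuousOn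
      continuous_const.continuousOn
    rw [fd_eq_closure_fdo]
    exact fun z hz => hon.closure hc continuous_const hz
  ext w
  obtain ⟨h, hh⟩ := exists_smul_mem_fd w
  have h1 := hzero (h : Γ₁ ⧸ Gamma0 N) _ hh
  obtain ⟨γ, hγ⟩ := QuotientGroup.mk_out_eq_mul (Gamma0 N) h
  have h2 : rep (h : Γ₁ ⧸ Gamma0 N) • h • w = (γ⁻¹ : Γ₁) • w := by
    show (Quotient.out (h : Γ₁ ⧸ Gamma0 N))⁻¹ • h • w = _
    rw [← mul_smul, hγ, mul_inv_rev, inv_mul_cancel_right]
  have h3 : petersson k f f ((γ⁻¹ : Γ₁) • w) = petersson k f f w := by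
    rw [← petersson_slash_SL, slash_of_mem f (inv_mem γ.2)]
  rw [h2, ← Complex.ofReal_eq_zero, ← petersson_self, h3, petersson_self, Complex.ofReal_eq_zero,
    absSq, mul_eq_zero, or_iff_left (zpow_ne_zero _ w.im_ne_zero), Complex.normSq_eq_zero] at h1
  simpa using h1

/-- The Petersson product is an inner product. -/
@[reducible] def pairingCore : InnerProductSpace.Core ℂ (CuspForm (Gamma0 N) k) where
  inner := pairing
  conj_inner_symm := pairing_symm
  re_inner_nonneg f := by
    rw [pairing_self]
    letI := Fintype.ofFinite (Γ₁ ⧸ Gamma0 N)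
    simpa using Finset.sum_nonneg fun x _ =>
      setIntegral_nonneg isOpen_fdo.measurableSet fun z _ => absSq_nonneg f _
  add_left := pairing_add_left
  smul_left f g r := pairing_smul_left r f g
  definite := pairing_definite

/-! ## Unfolding the product -/

variable {m : ℕ}

/-- `conj (e(m z)) f(z) y ^ k`. -/
def integrand (m : ℕ) (f : CuspForm (Gamma0 N) k) : ℍ → ℂ := petersson k (kernel m) f

omit [NeZero N] in
theorem integrand_T_zpow (f : CuspForm (Gamma0 N) k) (n : ℤ) (z : ℍ) :
    integrand m f (T ^ n • z) = integrand m f z := by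
  rw [integrand, ← petersson_slash_SL, slash_of_mem f (T_zpow_mem n),
    kernel_slash_eq_of_row (h := 1) (by funext j; fin_cases j <;> simp [coe_T_zpow]),
    SlashAction.slash_one]

theorem norm_integrand_le (f : CuspForm (Gamma0 N) k) :
    ∃ C, 0 ≤ C ∧ ∀ z : ℍ,
      ‖integrand m f z‖ ≤ C * (z.im ^ (k / 2 : ℝ) * Real.exp (-(2 * π * m * z.im))) := by
  obtain ⟨C, hC⟩ := CuspFormClass.exists_bound f
  refine ⟨max C 0, le_max_right _ _, fun z => ?_⟩
  have hy := z.im_pos
  rw [integrand, petersson, norm_mul, norm_mul, Complex.norm_conj, norm_kernel, norm_zpow,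
    Complex.norm_real, Real.norm_of_nonneg hy.le, ← Real.rpow_intCast, mul_comm (Real.exp _),
    mul_right_comm, ← mul_assoc (max C 0)]
  refine mul_le_mul_of_nonneg_right ?_ (Real.exp_nonneg _)
  refine (mul_le_mul_of_nonneg_right (hC z) (by positivity)).trans (le_of_le_of_eq
    (mul_le_mul_of_nonneg_right (div_le_div_of_nonneg_right (le_max_left C 0) (by positivity))
      (by positivity)) ?_)
  rw [div_mul_eq_mul_div, mul_div_assoc, ← Real.rpow_sub hy]
  ring_nf

theorem bounded_integrand (hk : 0 ≤ k) (hm : m ≠ 0) (f : CuspForm (Gamma0 N) k) :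
    ∃ C, ∀ z : ℍ, ‖integrand m f z‖ ≤ C := by
  obtain ⟨C, hC0, hC⟩ := norm_integrand_le (m := m) f
  set n := ⌈(k : ℝ) / 2⌉₊
  set a : ℝ := 2 * π * m with ha
  have ha0 : 0 < a := by
    have : (0 : ℝ) < m := by exact_mod_cast hm.bot_lt
    positivity
  refine ⟨C * (1 + n.factorial / a ^ n), fun z => (hC z).trans (mul_le_mul_of_nonneg_left ?_ hC0)⟩
  have hy := z.im_pos
  have hk0 : (0 : ℝ) ≤ k / 2 := by
    have : (0 : ℝ) ≤ k := by exact_mod_cast hk
    positivity
  have hp : z.im ^ (k / 2 : ℝ) ≤ 1 + z.im ^ n := by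
    rcases le_total z.im 1 with h | h
    · exact (Real.rpow_le_one hy.le h hk0).trans (le_add_of_nonneg_right (by positivity))
    · rw [← Real.rpow_natCast z.im n]
      exact (Real.rpow_le_rpow_of_exponent_le h (Nat.le_ceil _)).trans
        (le_add_of_nonneg_left zero_le_one)
  have he : z.im ^ n * Real.exp (-(a * z.im)) ≤ n.factorial / a ^ n := by
    have := Real.pow_div_factorial_le_exp (x := a * z.im) (by positivity) n
    rw [Real.exp_neg, ← div_eq_mul_inv, div_le_div_iff₀ (Real.exp_pos _) (by positivity)]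
    rw [div_le_iff₀ (by positivity)] at this
    rw [mul_pow] at this
    linarith
  have he1 : Real.exp (-(a * z.im)) ≤ 1 := Real.exp_le_one_iff.2 (neg_nonpos.2 (by positivity))
  calc z.im ^ (k / 2 : ℝ) * Real.exp (-(a * z.im))
      ≤ (1 + z.im ^ n) * Real.exp (-(a * z.im)) :=
        mul_le_mul_of_nonneg_right hp (Real.exp_nonneg _)
    _ ≤ 1 + n.factorial / a ^ n := by rw [add_mul, one_mul]; exact add_le_add he1 he

omit [NeZero N] in
theorem continuous_integrand (f : CuspForm (Gamma0 N) k) : Continuous (integrand m f) :=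
  petersson_continuous k (mdiff_kernel m).continuous (ModularFormClass.holo f).continuous

theorem integrableOn_integrand_strip (hk : 3 ≤ k) (hm : m ≠ 0) (f : CuspForm (Gamma0 N) k) :
    IntegrableOn (integrand m f) strip := by
  obtain ⟨C, hC0, hC⟩ := norm_integrand_le (m := m) f
  rw [integrableOn_strip_iff]
  set a : ℝ := 2 * π * m with ha
  have ha0 : 0 < a := by
    have : (0 : ℝ) < m := by exact_mod_cast hm.bot_lt
    positivity
  have hk' : (3 : ℝ) ≤ k := by exact_mod_cast hk
  have h1 : IntegrableOn (fun y : ℝ => C * (y ^ ((k : ℝ) / 2 - 2) * Real.exp (-a * y ^ (1 : ℝ))))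
      (Ioi 0) :=
    (integrableOn_rpow_mul_exp_neg_mul_rpow (by linarith) one_pos ha0).const_mul C
  have h2 : IntegrableOn (fun p : ℝ × ℝ => (1 : ℝ) *
      (C * (p.2 ^ ((k : ℝ) / 2 - 2) * Real.exp (-a * p.2 ^ (1 : ℝ))))) stripRect := by
    rw [stripRect, IntegrableOn, Measure.volume_eq_prod, ← Measure.prod_restrict]
    exact (integrable_const (1 : ℝ)).mul_prod h1
  have hmeas : Measurable (pushRect (integrand m f)) := by
    have h3 : Measurable fun p : ℝ × ℝ => ofComplex (p.1 + p.2 * Complex.I) := by
      have hof : Measurable (ofComplex : ℂ → ℍ) := by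
        refine measurableEmbedding_coe.measurable_comp_iff.1 ?_
        have : (UpperHalfPlane.coe ∘ ofComplex) =
            fun w : ℂ => if 0 < w.im then w else (Classical.choice inferInstance : ℍ) := by
          funext w
          split
          · rename_i h
            simp [ofComplex_apply_of_im_pos h]
          · rename_i h
            simp [ofComplex_apply_of_im_nonpos (not_lt.1 h)]
        rw [this]
        exact Measurable.ite (measurableSet_lt measurable_const Complex.measurable_im)
          measurable_id measurable_const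
      exact hof.comp (by fun_prop)
    exact (by fun_prop : Measurable fun p : ℝ × ℝ => (p.2 ^ 2)⁻¹).smul
      ((continuous_integrand f).measurable.comp h3)
  refine h2.mono' hmeas.aestronglyMeasurable ?_
  rw [stripRect, ae_restrict_iff' (measurableSet_Ico.prod measurableSet_Ioi)]
  refine Filter.Eventually.of_forall fun p hp => ?_
  have hy : (0 : ℝ) < p.2 := hp.2
  have him : (ofComplex (p.1 + p.2 * Complex.I)).im = p.2 := by
    rw [ofComplex_apply_of_im_pos (by simpa using hy)]
    simp [UpperHalfPlane.im]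
  rw [pushRect, norm_smul, one_mul, norm_inv, norm_pow, Real.norm_of_nonneg hy.le]
  refine (mul_le_mul_of_nonneg_left (hC _) (by positivity)).trans_eq ?_
  rw [him, Real.rpow_sub hy, Real.rpow_one, Real.rpow_two, ha, neg_mul]
  ring

theorem setIntegral_integrand (hk : 3 ≤ k) (hm : m ≠ 0) (f : CuspForm (Gamma0 N) k) :
    ∫ z in strip, integrand m f z =
      ((1 / (4 * π * m)) ^ ((k : ℝ) - 1) * Real.Gamma (k - 1) : ℝ) * (qExpansion 1 f).coeff m := by
  rw [setIntegral_strip_eq_iterated _ (integrableOn_integrand_strip hk hm f)]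
  have hper : (1 : ℝ) ∈ (Subgroup.map (Matrix.SpecialLinearGroup.mapGL ℝ)
      (Gamma0 N)).strictPeriods := one_mem_strictPeriods_Gamma0 N
  have hin : ∀ y ∈ Ioi (0 : ℝ), ∫ x in Ico (-(1 / 2) : ℝ) (1 / 2), pushRect (integrand m f) (x, y)
      = ((y ^ ((k : ℝ) - 1 - 1) * Real.exp (-(4 * π * m * y)) : ℝ) : ℂ) *
        (qExpansion 1 f).coeff m := by
    intro y hy
    have hy : (0 : ℝ) < y := hy
    rw [ModularFormClass.qExpansion_coeff_eq_intervalIntegral f one_pos hper m hy]
    set G : ℝ → ℂ := fun u => 1 / Function.Periodic.qParam 1 (u + y * Complex.I) ^ m *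
      (⇑f ∘ ofComplex) (u + y * Complex.I)
    have hG : Function.Periodic G 1 := fun u => by
      simp only [G]
      rw [show ((u + 1 : ℝ) : ℂ) + y * Complex.I = (u + y * Complex.I) + (1 : ℝ) by push_cast; ring,
        SlashInvariantFormClass.periodic_comp_ofComplex f hper,
        show Function.Periodic.qParam 1 ((u + y * Complex.I) + (1 : ℝ)) =
            Function.Periodic.qParam 1 (u + y * Complex.I) by
          rw [Function.Periodic.qParam, Function.Periodic.qParam,
            Complex.exp_eq_exp_iff_exists_int]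
          exact ⟨1, by push_cast; ring⟩]
    have hval : ∀ x : ℝ, pushRect (integrand m f) (x, y) =
        ((y ^ ((k : ℝ) - 1 - 1) * Real.exp (-(4 * π * m * y)) : ℝ) : ℂ) * G x := by
      intro x
      have hpos : 0 < ((x : ℂ) + y * Complex.I).im := by simpa using hy
      have him : (ofComplex ((x : ℂ) + y * Complex.I)).im = y := by
        rw [ofComplex_apply_of_im_pos hpos]; simp [UpperHalfPlane.im]
      have hc : (ofComplex ((x : ℂ) + y * Complex.I) : ℂ) = x + y * Complex.I :=
        ofComplex_coe_point hy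
      have hk2 : y ^ k / y ^ 2 = y ^ ((k : ℝ) - 1 - 1) := by
        rw [← Real.rpow_intCast, show (k : ℝ) - 1 - 1 = k - 2 by ring, Real.rpow_sub hy,
          Real.rpow_two]
      rw [← hk2]
      simp only [pushRect, integrand, petersson, kernel, G, Function.comp_apply, him, hc,
        Function.Periodic.qParam, Complex.real_smul, ← Complex.exp_conj, ← Complex.exp_nat_mul]
      have hexp : Complex.exp (conj (2 * π * Complex.I * m * (x + y * Complex.I))) =
          Real.exp (-(4 * π * m * y)) *
            (1 / Complex.exp (m * (2 * π * Complex.I * (x + y * Complex.I) / ((1 : ℝ) : ℂ)))) := by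
        rw [one_div, ← Complex.exp_neg, Complex.ofReal_exp, ← Complex.exp_add]
        congr 1
        simp only [map_mul, map_add, Complex.conj_ofReal, Complex.conj_I, map_natCast, map_ofNat]
        push_cast
        linear_combination (4 * π * m * y : ℂ) * Complex.I_sq
      rw [hexp]
      push_cast
      ring
    simp only [hval, integral_const_mul]
    congr 1
    have hshift : ∫ x in (-(1 / 2) : ℝ)..(1 / 2), G x = ∫ x in (0 : ℝ)..1, G x := by
      convert hG.intervalIntegral_add_eq (-(1 / 2)) 0 using 2 <;> norm_num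
    rw [integral_Ico_eq_integral_Ioc, ← intervalIntegral.integral_of_le (by norm_num), hshift]
    simp only [G, Function.comp_apply, one_div, inv_one, Complex.ofReal_one, one_mul]
    refine intervalIntegral.integral_congr fun u _ => ?_
    rw [ofComplex_apply_of_im_pos (by simpa using hy)]
  rw [setIntegral_congr_fun measurableSet_Ioi hin, integral_mul_const, integral_complex_ofReal,
    Real.integral_rpow_mul_exp_neg_mul_Ioi]
  · have : (3 : ℝ) ≤ k := by exact_mod_cast hk
    linarith
  · have : (0 : ℝ) < m := by exact_mod_cast hm.bot_lt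
    positivity

theorem petersson_series (hk : 3 ≤ k) (hm : m ≠ 0) (f : CuspForm (Gamma0 N) k) (w : ℍ) :
    petersson k (cuspForm N hk hm) f w = ∑' v : rows N, integrand m f (lift v.1 • w) := by
  rw [petersson, cuspForm_apply, series, Complex.conj_tsum, ← tsum_mul_right, ← tsum_mul_right]
  refine tsum_congr fun v => ?_
  rw [integrand, ← petersson_slash_SL, slash_of_mem f (lift_mem v.2), ← term, petersson]

/-- `(x, v) ↦ v g_x` onto the coprime pairs. -/
def pairsEquiv : (Γ₁ ⧸ Gamma0 N) × rows N ≃ pairs :=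
  Equiv.ofBijective (fun p => ⟨p.2.1 ᵥ* (rep p.1 : Matrix (Fin 2) (Fin 2) ℤ),
      p.2.2.1.vecMulSL _⟩) ⟨by
    rintro ⟨x, v⟩ ⟨y, w⟩ h
    have h' : (lift v.1 * rep x) 1 = (lift w.1 * rep y) 1 := by
      rw [mul_row, mul_row, lift_row v.2.1, lift_row w.2.1]
      exact congrArg Subtype.val h
    obtain ⟨n, hn⟩ := exists_T_zpow_of_row_eq h'
    have hmem : rep x * (rep y)⁻¹ ∈ Gamma0 N := by
      rw [show rep x * (rep y)⁻¹ = (lift v.1)⁻¹ * (T ^ n * lift w.1) by
        rw [eq_inv_mul_iff_mul_eq, ← mul_assoc, hn]; group]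
      exact mul_mem (inv_mem (lift_mem v.2)) (mul_mem (T_zpow_mem n) (lift_mem w.2))
    have hxy : x = y := by
      rw [← QuotientGroup.out_eq' x, ← QuotientGroup.out_eq' y, QuotientGroup.eq]
      simpa [rep] using hmem
    subst hxy
    refine Prod.ext rfl (Subtype.ext ?_)
    rw [← vecMul_cancel v.1 (rep x), ← vecMul_cancel w.1 (rep x)]
    exact congrArg (fun u : pairs => u.1 ᵥ* ((rep x)⁻¹ : Γ₁).1) h, by
    intro u
    set x : Γ₁ ⧸ Gamma0 N := QuotientGroup.mk (lift u.1)⁻¹ with hx
    obtain ⟨γ, hγ⟩ := QuotientGroup.mk_out_eq_mul (Gamma0 N) (lift u.1)⁻¹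
    have hmem : lift u.1 * (rep x)⁻¹ ∈ Gamma0 N := by
      rw [rep, inv_inv, hx, hγ, mul_inv_cancel_left]
      exact γ.2
    refine ⟨⟨x, ⟨(lift u.1 * (rep x)⁻¹) 1, row_coprime _, mem_Gamma0_iff.1 hmem⟩⟩,
      Subtype.ext ?_⟩
    show (lift u.1 * (rep x)⁻¹) 1 ᵥ* (rep x : Matrix (Fin 2) (Fin 2) ℤ) = u.1
    rw [← mul_row, inv_mul_cancel_right, lift_row u.2]⟩

theorem pairing_poincare (hk : 3 ≤ k) (hm : m ≠ 0) (f : CuspForm (Gamma0 N) k) :
    pairing (cuspForm N hk hm) f =
      ((2 * ((1 / (4 * π * m)) ^ ((k : ℝ) - 1) * Real.Gamma (k - 1)) : ℝ) : ℂ) *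
        (qExpansion 1 f).coeff m := by
  letI := Fintype.ofFinite (Γ₁ ⧸ Gamma0 N)
  set G := integrand m f with hG
  have hT := integrand_T_zpow (m := m) f
  obtain ⟨C, hC⟩ := bounded_integrand (by linarith : (0 : ℤ) ≤ k) hm f
  have hint := integrableOn_integrand_strip hk hm f
  have hsum := hasSum_unfold hT hint
  have hnorm : Summable fun v : pairs => ∫ z in fdo, ‖G (lift v.1 • z)‖ :=
    (hasSum_unfold (F := fun z => ‖G z‖) (fun n z => by rw [hG, hT]) hint.norm).summable
  rw [← pairsEquiv.hasSum_iff] at hsum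
  rw [← pairsEquiv.summable_iff] at hnorm
  have hrw : ∀ (x : Γ₁ ⧸ Gamma0 N) (v : rows N) (z : ℍ),
      G (lift (pairsEquiv (x, v)).1 • z) = G (lift v.1 • rep x • z) := fun x v z => by
    rw [smul_smul]
    refine smul_eq_of_row hT ?_ z
    rw [mul_row, lift_row v.2.1]
    show (lift (v.1 ᵥ* (rep x : Matrix (Fin 2) (Fin 2) ℤ))) 1 = _
    exact lift_row (v.2.1.vecMulSL _)
  have hx : ∀ x : Γ₁ ⧸ Gamma0 N, HasSum (fun v : rows N =>
      ∫ z in fdo, G (lift (pairsEquiv (x, v)).1 • z))
      (∫ z in fdo, petersson k (cuspForm N hk hm) f (rep x • z)) := by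
    intro x
    simp only [petersson_series hk hm f, hrw, ← hG]
    refine hasSum_integral_of_summable_integral_norm (fun v => ?_) ?_
    · have := integrableOn_fdo_of_bound (continuous_integrand f) hC (lift v.1 * rep x)
      simpa only [IntegrableOn, mul_smul] using this
    · have := hnorm.prod_factor x
      simpa only [Function.comp_apply, hrw] using this
  have htot := hsum.prod_fiberwise hx
  refine (htot.unique (hasSum_fintype _)).symm.trans ?_
  rw [setIntegral_integrand hk hm f, nsmul_eq_mul]
  push_cast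
  ring

/-- **The Poincaré series span.** -/
theorem span_poincare (hk : 3 ≤ k) :
    Submodule.span ℂ (Set.range fun m : ℕ => cuspForm N hk (Nat.succ_ne_zero m)) = ⊤ := by
  letI core : InnerProductSpace.Core ℂ (CuspForm (Gamma0 N) k) := pairingCore
  letI : NormedAddCommGroup (CuspForm (Gamma0 N) k) := core.toNormedAddCommGroup
  letI : InnerProductSpace ℂ (CuspForm (Gamma0 N) k) := InnerProductSpace.ofCore core.toCore
  haveI : FiniteDimensional ℂ (CuspForm (Gamma0 N) k) := Valence.finite_cuspForm
  rw [← Submodule.orthogonal_eq_bot_iff, Submodule.eq_bot_iff]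
  intro f hf
  have hz : ∀ j : ℕ, (qExpansion 1 f).coeff j = 0 := by
    intro j
    rcases j with _ | j
    · exact CuspFormClass.qExpansion_coeff_zero f one_pos (one_mem_strictPeriods_Gamma0 N)
    have h : pairing (cuspForm N hk (Nat.succ_ne_zero j)) f = 0 :=
      (Submodule.mem_orthogonal _ f).1 hf _ (Submodule.subset_span ⟨j, rfl⟩)
    rw [pairing_poincare, mul_eq_zero] at h
    refine h.resolve_left (Complex.ofReal_ne_zero.2 ?_)
    have h3 : (3 : ℝ) ≤ k := by exact_mod_cast hk
    exact (mul_pos two_pos (mul_pos (Real.rpow_pos_of_pos (by positivity) _)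
      (Real.Gamma_pos_of_pos (by linarith)))).ne'
  have hq : qExpansion 1 ⇑f = 0 := PowerSeries.ext fun j => by rw [hz j, map_zero]
  have : Fact (IsCusp OnePoint.infty (Subgroup.map (Matrix.SpecialLinearGroup.mapGL ℝ)
      (Gamma0 N))) :=
    ⟨Subgroup.isCusp_of_mem_strictPeriods one_pos (one_mem_strictPeriods_Gamma0 N)⟩
  exact DFunLike.ext' ((qExpansion_eq_zero_iff one_pos
    (SlashInvariantFormClass.periodic_comp_ofComplex f (one_mem_strictPeriods_Gamma0 N))
    (ModularFormClass.holo f) (ModularFormClass.bdd_at_infty f)).1 hq)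

end FA.Poincare

end
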