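import Fermat.Agent.Poincare.Product
import Fermat.Agent.HooleyRoots.Kloosterman
import Mathlib.Analysis.SpecialFunctions.Integrals.Basic
import Mathlib.MeasureTheory.Measure.Haar.NormedSpace

/-!
# The Fourier coefficients of a Poincaré series

`a_n(P_m) = (1 + (-1)^k) (δ_{m n} + ∑_{N ∣ c > 0} c^(-k) S(n, m; c) J(c))`, where `J(c)` is the
integral of `τ ^ (-k) e(-m / (c² τ) - n τ)` over a horizontal line.
-/

set_option autoImplicit false
set_option linter.style.haveILetI false

noncomputable section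

namespace FA.Poincare

open UpperHalfPlane hiding I
open Complex MeasureTheory ModularGroup Filter Set
open EisensteinSeries (eisSummand)
open scoped MatrixGroups Real Topology

local notation "Γ₁" => SL(2, ℤ)

/-! ## The integral -/

/-- The point `x + i y`. -/
def pt (x y : ℝ) : ℂ := x + y * I

theorem pt_ne_zero {x y : ℝ} (hy : 0 < y) : pt x y ≠ 0 := fun h => by
  simpa [pt, hy.ne'] using congrArg Complex.im h

theorem normSq_pt (x y : ℝ) : Complex.normSq (pt x y) = x ^ 2 + y ^ 2 := by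
  simp [pt, Complex.normSq_add_mul_I]

/-- `τ ^ (-k) e(-m / (c² τ) - n τ)` at `τ = x + i y`. -/
def profile (k : ℤ) (m n c : ℕ) (y x : ℝ) : ℂ :=
  pt x y ^ (-k) * cexp (-(2 * π * I * (m / ((c : ℂ) ^ 2 * pt x y) + n * pt x y)))

/-- The line integral. -/
def lineIntegral (k : ℤ) (m n c : ℕ) (y : ℝ) : ℂ := ∫ x : ℝ, profile k m n c y x

theorem norm_profile (k : ℤ) (m n c : ℕ) {y : ℝ} (hy : 0 < y) (x : ℝ) :
    ‖profile k m n c y x‖ = Real.exp (2 * π * n * y) *
      ((x ^ 2 + y ^ 2) ^ (-(k : ℝ) / 2) *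
        Real.exp (-(2 * π * m * y / ((c : ℝ) ^ 2 * (x ^ 2 + y ^ 2))))) := by
  have hs : 0 < x ^ 2 + y ^ 2 := by positivity
  rw [profile, norm_mul, norm_zpow, Complex.norm_exp, Complex.norm_def, normSq_pt,
    Real.sqrt_eq_rpow, ← Real.rpow_intCast, ← Real.rpow_mul hs.le, Int.cast_neg,
    mul_left_comm (Real.exp (2 * π * n * y)), ← Real.exp_add]
  congr 1
  · ring_nf
  · congr 1
    have h : (-(2 * π * I * (m / ((c : ℂ) ^ 2 * pt x y) + n * pt x y))).re =
        2 * π * ((m / ((c : ℂ) ^ 2 * pt x y)).im + n * y) := by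
      simp [pt, mul_re, mul_im]
    rw [h]
    rcases eq_or_ne c 0 with rfl | hc
    · simp; ring
    · have h2 : (m / ((c : ℂ) ^ 2 * pt x y)).im =
          -((m : ℝ) * y / ((c : ℝ) ^ 2 * (x ^ 2 + y ^ 2))) := by
        rw [div_mul_eq_div_div, show ((m : ℂ) / (c : ℂ) ^ 2) = (((m : ℝ) / (c : ℝ) ^ 2 : ℝ) : ℂ) by
          push_cast; ring, Complex.div_im, normSq_pt, Complex.ofReal_re, Complex.ofReal_im]
        simp [pt]
        field_simp
      rw [h2]
      ring

theorem norm_profile_le {k : ℤ} (hk : 2 ≤ k) (m n c : ℕ) {y : ℝ} (hy : 0 < y) (x : ℝ) :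
    ‖profile k m n c y x‖ ≤
      Real.exp (2 * π * n * y) * (y ^ (2 - (k : ℝ)) * (x ^ 2 + y ^ 2)⁻¹) := by
  have hs : 0 < x ^ 2 + y ^ 2 := by positivity
  rw [norm_profile k m n c hy x]
  refine mul_le_mul_of_nonneg_left ((mul_le_of_le_one_right (by positivity)
    (Real.exp_le_one_iff.2 (neg_nonpos.2 (by positivity)))).trans ?_) (Real.exp_nonneg _)
  rw [show -(k : ℝ) / 2 = (2 - (k : ℝ)) / 2 + (-1 : ℝ) by ring, Real.rpow_add hs, Real.rpow_neg_one]
  refine mul_le_mul_of_nonneg_right ?_ (by positivity)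
  have hk' : (2 : ℝ) ≤ k := by exact_mod_cast hk
  calc (x ^ 2 + y ^ 2) ^ ((2 - (k : ℝ)) / 2) ≤ (y ^ 2) ^ ((2 - (k : ℝ)) / 2) :=
        Real.rpow_le_rpow_of_nonpos (by positivity) (le_add_of_nonneg_left (sq_nonneg x))
          (by linarith)
    _ = y ^ (2 - (k : ℝ)) := by
      rw [← Real.rpow_two, ← Real.rpow_mul hy.le]
      ring_nf

theorem inv_sq_add_sq {y : ℝ} (hy : 0 < y) (x : ℝ) :
    (x ^ 2 + y ^ 2)⁻¹ = (y ^ 2)⁻¹ * (1 + (x / y) ^ 2)⁻¹ := by
  rw [← mul_inv, mul_add, mul_one, div_pow, mul_div_cancel₀ _ (by positivity : y ^ 2 ≠ 0), add_comm]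

theorem integrable_inv_sq_add_sq {y : ℝ} (hy : 0 < y) :
    Integrable fun x : ℝ => (x ^ 2 + y ^ 2)⁻¹ := by
  simp only [inv_sq_add_sq hy]
  exact (integrable_inv_one_add_sq.comp_div hy.ne').const_mul _

theorem continuous_profile (k : ℤ) (m n : ℕ) {c : ℕ} (hc : c ≠ 0) {y : ℝ} (hy : 0 < y) :
    Continuous (profile k m n c y) := by
  have hp : Continuous fun x : ℝ => pt x y := by unfold pt; fun_prop
  have hne : ∀ x : ℝ, pt x y ≠ 0 := fun x => pt_ne_zero hy
  refine (hp.zpow₀ _ fun x => .inl (hne x)).mul (Complex.continuous_exp.comp ?_)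
  refine (continuous_const.mul (Continuous.add ?_ (continuous_const.mul hp))).neg
  exact continuous_const.div (continuous_const.mul hp) fun x =>
    mul_ne_zero (pow_ne_zero _ (Nat.cast_ne_zero.2 hc)) (hne x)

theorem integrable_profile {k : ℤ} (hk : 2 ≤ k) (m n : ℕ) {c : ℕ} (hc : c ≠ 0) {y : ℝ}
    (hy : 0 < y) : Integrable (profile k m n c y) :=
  (((integrable_inv_sq_add_sq hy).const_mul _).const_mul _).mono'
    (continuous_profile k m n hc hy).aestronglyMeasurable
    (Eventually.of_forall fun x => norm_profile_le hk m n c hy x)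

/-! ## The rows by denominator -/

variable {N : ℕ}

/-- The positive multiples of `N`. -/
def moduli (N : ℕ) : Set ℕ := {c | 0 < c ∧ N ∣ c}

instance (c : moduli N) : NeZero (c : ℕ) := ⟨c.2.1.ne'⟩

/-- The rows with one sign. -/
def posRows (N : ℕ) : Set (Fin 2 → ℤ) := rows N ∩ posPairs

/-- `(0, 1)`, and `(c, u + c j)`. -/
def rowOf : Option (Σ c : moduli N, (ZMod c)ˣ × ℤ) → posRows N
  | none => ⟨![0, 1], ⟨by simp [isCoprime_zero_left], by simp⟩,
      ⟨by simp [isCoprime_zero_left], .inr (by simp)⟩⟩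
  | some ⟨c, u, j⟩ =>
    haveI hcop : IsCoprime ((c : ℕ) : ℤ) (((u : ZMod c).val : ℤ) + (c : ℕ) * j) :=
      (Int.isCoprime_iff_nat_coprime.2 (by
        rw [Int.natAbs_natCast, Int.natAbs_natCast]
        exact (ZMod.val_coe_unit_coprime u).symm)).add_mul_left_right j
    ⟨![((c : ℕ) : ℤ), ((u : ZMod c).val : ℤ) + (c : ℕ) * j],
      ⟨by simpa using hcop, by simpa using Int.natCast_dvd_natCast.2 c.2.2⟩,
      ⟨by simpa using hcop, .inl (by simpa using Int.natCast_pos.2 c.2.1)⟩⟩

theorem bijective_rowOf : Function.Bijective (rowOf (N := N)) := by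
  constructor
  · rintro (_ | ⟨c, u, j⟩) (_ | ⟨c', u', j'⟩) h <;> have h' := congrArg Subtype.val h
    · rfl
    · exact absurd (congrFun h' 0) fun e => NeZero.ne (c' : ℕ) (by simpa [rowOf] using e.symm)
    · exact absurd (congrFun h' 0) (by simp [rowOf, NeZero.ne (c : ℕ)])
    · have h0 : (c : ℕ) = c' := by simpa [rowOf] using congrFun h' 0
      obtain rfl : c = c' := Subtype.ext h0
      have h1 : ((u : ZMod c).val : ℤ) + (c : ℕ) * j = (u' : ZMod c).val + (c : ℕ) * j' := by
        simpa [rowOf] using congrFun h' 1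
      have hu : u = u' := Units.ext (by
        have := congrArg (fun t : ℤ => (t : ZMod c)) h1
        simpa using this)
      subst hu
      have hj : j = j' := by
        simpa [NeZero.ne (c : ℕ)] using h1
      subst hj
      rfl
  · rintro ⟨v, ⟨hv, hN⟩, -, hpos⟩
    rcases hpos with hpos | ⟨h0, h1⟩
    · obtain ⟨c, hc⟩ : ∃ c : ℕ, v 0 = c := ⟨(v 0).toNat, (Int.toNat_of_nonneg hpos.le).symm⟩
      have hc0 : 0 < c := by omega
      have hcN : N ∣ c := by
        rw [hc] at hN
        exact Int.natCast_dvd_natCast.1 hN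
      haveI : NeZero c := ⟨hc0.ne'⟩
      have hu : IsUnit (v 1 : ZMod c) := by
        rw [ZMod.coe_int_isUnit_iff_isCoprime, ← hc]
        exact hv
      refine ⟨some ⟨⟨c, hc0, hcN⟩, hu.unit, v 1 / c⟩, Subtype.ext ?_⟩
      ext i
      fin_cases i
      · simpa [rowOf] using hc.symm
      · show ((hu.unit : ZMod c).val : ℤ) + (c : ℤ) * (v 1 / c) = v 1
        rw [IsUnit.unit_spec, ZMod.val_intCast, Int.emod_def]
        ring
    · refine ⟨none, Subtype.ext ?_⟩
      have hv1 : v 1 = 1 := by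
        rw [h0, isCoprime_zero_left, Int.isUnit_iff] at hv
        omega
      ext i
      fin_cases i <;> simp [rowOf, h0, hv1]

/-! ## Symmetry in the sign -/

variable {m : ℕ} {k : ℤ}

theorem term_neg (m : ℕ) (k : ℤ) {v : Fin 2 → ℤ} (hv : v ∈ pairs) (z : ℍ) :
    term m k (-v) z = (-1) ^ k * term m k v z := by
  rw [term_apply m k (neg_mem_pairs hv), term_apply m k hv,
    lift_neg_smul (F := kernel m) (fun n w => kernel_T_zpow_smul m n w) hv]
  simp only [eisSummand, Pi.neg_apply, Int.cast_neg]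
  rw [show -(v 0 : ℂ) * z + -(v 1 : ℂ) = -1 * ((v 0 : ℂ) * z + v 1) by ring, mul_zpow,
    show (-1 : ℂ) ^ (-k) = (-1) ^ k by rw [zpow_neg, ← inv_zpow]; norm_num]
  ring

theorem series_eq_pos (hk : 3 ≤ k) (z : ℍ) :
    series N m k z = (1 + (-1) ^ k) * ∑' v : posRows N, term m k v.1 z := by
  have hsum := (summable_norm_term (N := N) (m := m) hk z).of_norm
  set s : Set (rows N) := {v | v.1 ∈ posPairs}
  let e : s ≃ posRows N :=
    { toFun := fun v => ⟨v.1.1, v.1.2, v.2⟩
      invFun := fun v => ⟨⟨v.1, v.2.1⟩, v.2.2⟩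
      left_inv := fun _ => rfl
      right_inv := fun _ => rfl }
  let eneg : s ≃ (sᶜ : Set (rows N)) :=
    { toFun := fun v => ⟨⟨-v.1.1, IsCoprime.neg_neg v.1.2.1, by simpa using v.1.2.2⟩,
        fun h => (neg_mem_posPairs_iff v.1.2.1).1 h v.2⟩
      invFun := fun v => ⟨⟨-v.1.1, IsCoprime.neg_neg v.1.2.1, by simpa using v.1.2.2⟩,
        (neg_mem_posPairs_iff v.1.2.1).2 v.2⟩
      left_inv := fun v => by ext; simp
      right_inv := fun v => by ext; simp }
  have h2 : ∑' v : (sᶜ : Set (rows N)), term m k v.1.1 z =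
      (-1) ^ k * ∑' v : s, term m k v.1.1 z := by
    rw [← eneg.tsum_eq, ← tsum_mul_left]
    exact tsum_congr fun v => term_neg m k v.1.2.1 z
  rw [series, ← e.tsum_eq]
  refine ((hsum.subtype s).tsum_add_tsum_compl (hsum.subtype sᶜ)).symm.trans ?_
  refine (congrArg _ h2).trans ?_
  show (∑' v : s, term m k v.1.1 z) + _ = (1 + (-1 : ℂ) ^ k) * ∑' v : s, term m k v.1.1 z
  ring

/-! ## The coefficient -/

theorem integral_row_zero (m n : ℕ) (k : ℤ) {y : ℝ} (hy : 0 < y) :
    (∫ x in (0 : ℝ)..1, 1 / Function.Periodic.qParam 1 (x + y * I) ^ n *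
      term m k ![0, 1] (ofComplex (x + y * I))) = if m = n then 1 else 0 := by
  have hv : IsCoprime ((![0, 1] : Fin 2 → ℤ) 0) ((![0, 1] : Fin 2 → ℤ) 1) := by
    simp [isCoprime_zero_left]
  have hterm : ∀ z : ℍ, term m k ![0, 1] z = kernel m z := fun z => by
    rw [term_apply m k hv, smul_eq_of_row (F := kernel m) (fun j w => kernel_T_zpow_smul m j w)
      (g := lift ![0, 1]) (h := 1) (by rw [lift_row hv]; ext i; fin_cases i <;> simp)]
    simp [eisSummand]
  have he : ∀ x : ℝ, 1 / Function.Periodic.qParam 1 (x + y * I) ^ n *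
      term m k ![0, 1] (ofComplex (x + y * I)) =
      cexp ((2 * π * I * ((m : ℂ) - n)) * x) * cexp (2 * π * I * ((m : ℂ) - n) * (y * I)) := by
    intro x
    rw [hterm, kernel, Function.Periodic.qParam, ofComplex_coe_point hy, ← Complex.exp_nat_mul,
      one_div, ← Complex.exp_neg, ← Complex.exp_add, ← Complex.exp_add]
    congr 1
    push_cast
    ring
  simp only [he, intervalIntegral.integral_mul_const]
  split_ifs with h
  · simp [h]
  · rw [integral_exp_mul_complex (mul_ne_zero (by simp [Real.pi_ne_zero])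
      (sub_ne_zero.2 (by exact_mod_cast h))),
      show (2 * π * I * ((m : ℂ) - n)) * ((1 : ℝ) : ℂ) = ((((m : ℤ) - n : ℤ)) : ℂ) * (2 * π * I) by
        push_cast; ring, Complex.exp_int_mul_two_pi_mul_I]
    simp

theorem integrand_row (m n : ℕ) (k : ℤ) {y : ℝ} (hy : 0 < y) (c : moduli N) (u : (ZMod c)ˣ)
    (j : ℤ) (x : ℝ) :
    1 / Function.Periodic.qParam 1 (x + y * I) ^ n *
      term m k (rowOf (some ⟨c, u, j⟩)).1 (ofComplex (x + y * I)) =
    ((c : ℕ) : ℂ) ^ (-k) *
      ZMod.stdAddChar ((n : ZMod c) * (u : ZMod c) + (m : ZMod c) * ((u⁻¹ : (ZMod c)ˣ) : ZMod c)) *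
      profile k m n c y ((x + j) + ((u : ZMod c).val : ℝ) / (c : ℕ)) := by
  set v := (rowOf (some ⟨c, u, j⟩)).1 with hv
  set d : ℤ := ((u : ZMod c).val : ℤ) + (c : ℕ) * j with hd
  have hv0 : v 0 = (c : ℕ) := rfl
  have hv1 : v 1 = d := rfl
  have hcop : IsCoprime (v 0) (v 1) := (rowOf (some ⟨c, u, j⟩)).2.1.1
  set g := lift v
  have hg := lift_row hcop
  have hg0 : g 1 0 = (c : ℕ) := (congrFun hg 0).trans hv0
  have hg1 : g 1 1 = d := (congrFun hg 1).trans hv1
  have hdet := g.det_coe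
  rw [Matrix.det_fin_two, hg0, hg1] at hdet
  have hdu : (d : ZMod c) = (u : ZMod c) := by simp [hd]
  have hau : (g 0 0 : ZMod c) = ((u⁻¹ : (ZMod c)ˣ) : ZMod c) := by
    have := congrArg (fun t : ℤ => (t : ZMod c)) hdet
    simp only [Int.cast_sub, Int.cast_mul, Int.cast_natCast, ZMod.natCast_self, mul_zero,
      sub_zero, Int.cast_one, hdu] at this
    rw [mul_comm] at this
    exact (Units.eq_inv_of_mul_eq_one_left (u := u) (a := (g 0 0 : ZMod c)) this)
  have hc : ((c : ℕ) : ℂ) ≠ 0 := Nat.cast_ne_zero.2 (NeZero.ne _)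
  set τ : ℂ := pt ((x + j) + ((u : ZMod c).val : ℝ) / (c : ℕ)) y with hτ
  have hτ0 : τ ≠ 0 := pt_ne_zero hy
  have hzτ : (x : ℂ) + y * I = τ - (d : ℂ) / (c : ℕ) := by
    rw [hτ, pt, hd]
    push_cast
    field_simp
    ring
  have hden : ((c : ℕ) : ℂ) * (x + y * I) + d = (c : ℕ) * τ := by
    rw [hzτ]
    field_simp
    ring
  have hdetC : (g 0 0 : ℂ) * d - (g 0 1 : ℂ) * (c : ℕ) = 1 := by exact_mod_cast hdet
  have hsmul : ((g • ofComplex (x + y * I) : ℍ) : ℂ) =
      (g 0 0 : ℂ) / (c : ℕ) - 1 / ((c : ℕ) ^ 2 * τ) := by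
    rw [UpperHalfPlane.specialLinearGroup_apply]
    simp only [ofComplex_coe_point hy, algebraMap_int_eq, eq_intCast, ofReal_intCast, hg0, hg1,
      Int.cast_natCast, ofReal_natCast]
    rw [hden, hzτ]
    field_simp
    linear_combination (-1 : ℂ) * hdetC
  rw [term_apply m k hcop, kernel, hsmul, eisSummand, hv0, hv1, Int.cast_natCast,
    ofComplex_coe_point hy, hden, mul_zpow, profile, ← hτ]
  have hchar : (ZMod.stdAddChar
      ((n : ZMod c) * (u : ZMod c) + (m : ZMod c) * ((u⁻¹ : (ZMod c)ˣ) : ZMod c)) : ℂ) =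
      cexp (2 * π * I * ((n : ℂ) * d + m * (g 0 0 : ℂ)) / (c : ℕ)) := by
    rw [← hdu, ← hau]
    have := ZMod.stdAddChar_coe (N := (c : ℕ)) ((n : ℤ) * d + m * g 0 0)
    push_cast at this
    exact this
  rw [hchar]
  have hexp : 1 / Function.Periodic.qParam 1 (x + y * I) ^ n *
      cexp (2 * π * I * m * ((g 0 0 : ℂ) / (c : ℕ) - 1 / ((c : ℕ) ^ 2 * τ))) =
      cexp (2 * π * I * ((n : ℂ) * d + m * (g 0 0 : ℂ)) / (c : ℕ)) *
        cexp (-(2 * π * I * (m / (((c : ℕ) : ℂ) ^ 2 * τ) + n * τ))) := by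
    rw [Function.Periodic.qParam, ← Complex.exp_nat_mul, one_div, ← Complex.exp_neg,
      ← Complex.exp_add, ← Complex.exp_add, hzτ]
    congr 1
    field_simp
    push_cast
    ring
  linear_combination (((c : ℕ) : ℂ) ^ (-k) * τ ^ (-k)) * hexp

theorem coefficient [NeZero N] (hk : 3 ≤ k) (hm : m ≠ 0) (n : ℕ) {y : ℝ} (hy : 0 < y) :
    HasSum (fun c : moduli N => (1 + (-1) ^ k) * ((((c : ℕ) : ℂ) ^ (-k)) *
        HooleyRoots.klSum c (n : ZMod c) (m : ZMod c) * lineIntegral k m n c y))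
      ((qExpansion 1 (cuspForm N hk hm)).coeff n - (1 + (-1) ^ k) * if m = n then 1 else 0) := by
  set ε : ℂ := 1 + (-1) ^ k
  set q : ℝ → ℂ := fun x => 1 / Function.Periodic.qParam 1 (x + y * I) ^ n
  have hq : ∀ x : ℝ, ‖q x‖ = Real.exp (2 * π * n * y) := fun x => by
    simp only [q]
    rw [norm_div, norm_one, norm_pow, Function.Periodic.norm_qParam, ← Real.exp_nat_mul, one_div,
      ← Real.exp_neg]
    congr 1
    simp
    ring
  set B := EisensteinSeries.r ⟨⟨1, y⟩, hy⟩ with hB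
  have hk' : (2 : ℝ) < k := by norm_cast
  have hbound : Summable fun v : posRows N =>
      Real.exp (2 * π * n * y) * (B ^ (-(k : ℝ)) * ‖v.1‖ ^ (-(k : ℝ))) :=
    (((EisensteinSeries.summable_one_div_norm_rpow hk').subtype _).mul_left _).mul_left _
  have hterm : ∀ (v : posRows N) (x : ℝ), x ∈ Set.uIoc (0 : ℝ) 1 →
      ‖q x * term m k v.1 (ofComplex (x + y * I))‖ ≤
        Real.exp (2 * π * n * y) * (B ^ (-(k : ℝ)) * ‖v.1‖ ^ (-(k : ℝ))) := by
    intro v x hx
    rw [uIoc_of_le zero_le_one] at hx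
    rw [norm_mul, hq]
    refine mul_le_mul_of_nonneg_left ((norm_term_le m k v.2.1.1 _).trans ?_) (Real.exp_nonneg _)
    rw [eisSummand, norm_zpow, ← Real.rpow_intCast, Int.cast_neg]
    refine EisensteinSeries.summand_bound_of_mem_verticalStrip (by linarith) v.1 hy ?_
    rw [ofComplex_apply_of_im_pos (by simpa using hy)]
    constructor
    · simp [UpperHalfPlane.re, abs_le]
      exact ⟨by linarith [hx.1], hx.2⟩
    · simp [UpperHalfPlane.im]
  have hcontC : Continuous fun x : ℝ => ofComplex (x + y * I) :=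
    UpperHalfPlane.isEmbedding_coe.continuous_iff.2
      (((by fun_prop : Continuous fun x : ℝ => (x : ℂ) + y * I)).congr
        fun x => (ofComplex_coe_point hy).symm)
  have hqc : Continuous q := continuous_const.div
    (((Function.Periodic.continuous_qParam).comp (by fun_prop)).pow n)
    fun x => pow_ne_zero _ (Function.Periodic.qParam_ne_zero _)
  have hint : HasSum
      (fun v : posRows N => ∫ x in (0 : ℝ)..1, q x * term m k v.1 (ofComplex (x + y * I)))
      (∫ x in (0 : ℝ)..1, q x * ∑' v : posRows N, term m k v.1 (ofComplex (x + y * I))) := by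
    refine intervalIntegral.hasSum_integral_of_dominated_convergence
      (fun v _ => Real.exp (2 * π * n * y) * (B ^ (-(k : ℝ)) * ‖v.1‖ ^ (-(k : ℝ))))
      (fun v => (hqc.mul ((mdiff_term m k v.1).continuous.comp hcontC)).aestronglyMeasurable)
      (fun v => Eventually.of_forall (hterm v)) (Eventually.of_forall fun _ _ => hbound)
      intervalIntegrable_const (Eventually.of_forall fun x hx => ?_)
    rw [← tsum_mul_left]
    exact (Summable.of_norm_bounded hbound fun v => hterm v x hx).hasSum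
  have hcoeff : (qExpansion 1 (cuspForm N hk hm)).coeff n =
      ε * ∫ x in (0 : ℝ)..1, q x * ∑' v : posRows N, term m k v.1 (ofComplex (x + y * I)) := by
    rw [ModularFormClass.qExpansion_coeff_eq_intervalIntegral (cuspForm N hk hm) one_pos
      (CongruenceSubgroup.one_mem_strictPeriods_Gamma0 N) n hy]
    simp only [Complex.ofReal_one, div_one, one_mul]
    rw [← intervalIntegral.integral_const_mul]
    refine intervalIntegral.integral_congr fun x _ => ?_
    rw [cuspForm_apply, series_eq_pos hk, ← ofComplex_apply_of_im_pos]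
    ring
  have h0 := ((Equiv.ofBijective _ (bijective_rowOf (N := N))).hasSum_iff).2 hint
  have hzero : (∫ x in (0 : ℝ)..1, q x * term m k (rowOf (N := N) none).1 (ofComplex (x + y * I))) =
      if m = n then 1 else 0 := integral_row_zero m n k hy
  have hsome := (hasSum_ite_sub_hasSum h0 none)
  simp only [Function.comp_apply, Equiv.ofBijective_apply, hzero] at hsome
  set L := ∫ x in (0 : ℝ)..1, q x * ∑' v : posRows N, term m k v.1 (ofComplex (x + y * I))
  have hsig : HasSum (fun p : Σ c : moduli N, (ZMod c)ˣ × ℤ =>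
      ∫ x in (0 : ℝ)..1, q x * term m k (rowOf (some p)).1 (ofComplex (x + y * I)))
      (L - if m = n then 1 else 0) := by
    refine
      ((Option.some_injective _).hasSum_iff (g := (some : _ → Option _)) fun o ho => ?_).2 hsome
    rcases o with _ | p
    · simp
    · exact absurd ⟨p, rfl⟩ ho
  have hfib : ∀ c : moduli N, HasSum (fun p : (ZMod c)ˣ × ℤ =>
      ∫ x in (0 : ℝ)..1, q x * term m k (rowOf (some ⟨c, p⟩)).1 (ofComplex (x + y * I)))
      ((((c : ℕ) : ℂ) ^ (-k)) * HooleyRoots.klSum c (n : ZMod c) (m : ZMod c) *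
        lineIntegral k m n c y) := by
    intro c
    have hj : ∀ u : (ZMod c)ˣ, HasSum (fun j : ℤ =>
        ∫ x in (0 : ℝ)..1, q x * term m k (rowOf (some ⟨c, u, j⟩)).1 (ofComplex (x + y * I)))
        (((c : ℕ) : ℂ) ^ (-k) * ZMod.stdAddChar
          ((n : ZMod c) * (u : ZMod c) + (m : ZMod c) * ((u⁻¹ : (ZMod c)ˣ) : ZMod c)) *
          lineIntegral k m n c y) := by
      intro u
      set a : ℝ := ((u : ZMod c).val : ℝ) / (c : ℕ)
      have hi : Integrable fun x => profile k m n c y (x + a) :=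
        (integrable_profile (by linarith) m n (NeZero.ne _) hy).comp_add_right a
      have hs := hi.hasSum_intervalIntegral_comp_add_int.mul_left
        (((c : ℕ) : ℂ) ^ (-k) * ZMod.stdAddChar
          ((n : ZMod c) * (u : ZMod c) + (m : ZMod c) * ((u⁻¹ : (ZMod c)ˣ) : ZMod c)))
      rw [integral_add_right_eq_self (fun x => profile k m n c y x) a] at hs
      refine hs.congr_fun fun j => ?_
      rw [← intervalIntegral.integral_const_mul]
      exact intervalIntegral.integral_congr fun x _ => integrand_row m n k hy c u j x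
    have hsumm := hsig.summable.sigma_factor c
    obtain ⟨S, hS⟩ := hsumm
    have h1 : HasSum (fun u : (ZMod c)ˣ => ((c : ℕ) : ℂ) ^ (-k) * ZMod.stdAddChar
          ((n : ZMod c) * (u : ZMod c) + (m : ZMod c) * ((u⁻¹ : (ZMod c)ˣ) : ZMod c)) *
          lineIntegral k m n c y) S := hS.prod_fiberwise hj
    rw [HooleyRoots.klSum, Finset.mul_sum, Finset.sum_mul, ← h1.unique (hasSum_fintype _)]
    exact hS
  have htot := (hsig.sigma hfib).mul_left ε
  rw [hcoeff]
  simpa [mul_sub] using htot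

end FA.Poincare

end
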