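import Fermat.Agent.Poincare.Product
import Fermat.Agent.Eisenstein.LiftLevelOne
import Mathlib.NumberTheory.ModularForms.LevelOne.DimensionFormula

/-!
# The Poincaré series of weight twelve and Ramanujan's `τ`
-/

set_option autoImplicit false

noncomputable section

namespace FA.Poincare

open UpperHalfPlane hiding I
open CongruenceSubgroup
open scoped MatrixGroups ComplexConjugate

/-- `Δ` as a cusp form for `Γ₀(1)`. -/
def deltaOne : CuspForm (Gamma0 1) 12 :=
  CuspForm.mcast rfl CuspForm.discriminant EisCong.gamma0_one_coe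

theorem exists_eq_smul_deltaOne (f : CuspForm (Gamma0 1) 12) : ∃ c : ℂ, f = c • deltaOne := by
  obtain ⟨c, hc⟩ := CuspForm.exists_smul_discriminant_of_weight_eq_twelve
    (CuspForm.mcast rfl f EisCong.gamma0_one_coe.symm)
  exact ⟨c, DFunLike.ext _ _ fun z => (DFunLike.congr_fun hc z).symm⟩

theorem poincare_twelve_eq_zero_iff {m : ℕ} (hm : m ≠ 0) :
    cuspForm 1 (by norm_num : (3 : ℤ) ≤ 12) hm = 0 ↔
      (qExpansion 1 ModularForm.discriminant).coeff m = 0 := by
  set P := cuspForm 1 (by norm_num : (3 : ℤ) ≤ 12) hm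
  have hp := pairing_poincare (N := 1) (by norm_num : (3 : ℤ) ≤ 12) hm deltaOne
  have hC : ((2 * ((1 / (4 * Real.pi * m)) ^ (((12 : ℤ) : ℝ) - 1) *
      Real.Gamma (((12 : ℤ) : ℝ) - 1)) : ℝ) : ℂ) ≠ 0 := by
    refine Complex.ofReal_ne_zero.2 (ne_of_gt ?_)
    have : (0 : ℝ) < m := by exact_mod_cast hm.bot_lt
    exact mul_pos two_pos (mul_pos (Real.rpow_pos_of_pos (by positivity) _)
      (Real.Gamma_pos_of_pos (by norm_num)))
  constructor
  · intro h
    have h0 : pairing P deltaOne = 0 := by
      rw [h, show (0 : CuspForm (Gamma0 1) 12) = (0 : ℂ) • deltaOne by simp, pairing_smul_left]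
      simp
    exact (mul_eq_zero.1 (hp ▸ h0)).resolve_left hC
  · intro h
    obtain ⟨c, hc⟩ := exists_eq_smul_deltaOne P
    refine pairing_definite P ?_
    have h0 : pairing P deltaOne = 0 := by
      rw [hp]
      exact mul_eq_zero_of_right _ h
    rw [← pairing_symm P P]
    nth_rw 1 [hc]
    rw [pairing_smul_left, ← pairing_symm deltaOne P, h0]
    simp

end FA.Poincare

end
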