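import Mathlib.NumberTheory.Modular
import Mathlib.NumberTheory.ModularForms.Basic
import Mathlib.NumberTheory.ModularForms.EisensteinSeries.UniformConvergence
import Mathlib.NumberTheory.ModularForms.EisensteinSeries.IsBoundedAtImInfty
import Mathlib.Analysis.Complex.UpperHalfPlane.Manifold
import Mathlib.Analysis.Complex.LocallyUniformLimit

/-!
# Poincaré series

For integers `k ≥ 3`, `m ≥ 1` and `N ≥ 1` the sum over coprime pairs `(c, d)` with `N ∣ c` of
`e(m γ z) (c z + d) ^ (-k)`, where `γ` has bottom row `(c, d)`, is a cusp form of weight `k` for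
`Γ₀(N)`: each term is at most `‖c z + d‖ ^ (-k)`, a term of an Eisenstein series, and the terms
with `c ≠ 0` add up to `O(y ^ (-1/2))`.
-/

set_option autoImplicit false

noncomputable section

namespace FA.Poincare

open UpperHalfPlane hiding I
open Complex Filter Matrix ModularGroup CongruenceSubgroup
open EisensteinSeries (eisSummand)
open scoped MatrixGroups Manifold Topology ModularForm Real

local notation "Γ₁" => SL(2, ℤ)

/-! ## The kernel -/

/-- `e(m z)`. -/
def kernel (m : ℕ) (z : ℍ) : ℂ := cexp (2 * π * Complex.I * m * z)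

theorem norm_kernel (m : ℕ) (z : ℍ) : ‖kernel m z‖ = Real.exp (-(2 * π * m * z.im)) := by
  rw [kernel, Complex.norm_exp]
  simp [mul_re, mul_im]

theorem norm_kernel_le_one (m : ℕ) (z : ℍ) : ‖kernel m z‖ ≤ 1 := by
  rw [norm_kernel, Real.exp_le_one_iff, neg_nonpos]
  have := z.im_pos
  positivity

theorem kernel_vadd_int (m : ℕ) (n : ℤ) (z : ℍ) : kernel m ((n : ℝ) +ᵥ z) = kernel m z := by
  rw [kernel, kernel, coe_vadd, ofReal_intCast, Complex.exp_eq_exp_iff_exists_int]
  exact ⟨m * n, by push_cast; ring⟩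

theorem kernel_T_zpow_smul (m : ℕ) (n : ℤ) (z : ℍ) : kernel m (T ^ n • z) = kernel m z := by
  rw [modular_T_zpow_smul, kernel_vadd_int]

theorem mdiff_kernel (m : ℕ) : MDiff (kernel m) := by
  rw [UpperHalfPlane.mdifferentiable_iff]
  refine DifferentiableOn.congr (f := fun w : ℂ => cexp (2 * π * Complex.I * m * w))
    (by fun_prop) fun w hw => ?_
  simp [kernel, ofComplex_apply_of_im_pos hw]

/-! ## Rows -/

/-- A matrix with prescribed bottom row. -/
def lift (v : Fin 2 → ℤ) : Γ₁ :=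
  if h : IsCoprime (v 0) (v 1) then (bottom_row_surj (R := ℤ) h).choose else 1

theorem lift_row {v : Fin 2 → ℤ} (hv : IsCoprime (v 0) (v 1)) : lift v 1 = v := by
  rw [lift, dif_pos hv]
  exact (bottom_row_surj (R := ℤ) hv).choose_spec.2

theorem row_coprime (g : Γ₁) : IsCoprime (g 1 0) (g 1 1) := bottom_row_coprime g

/-- Matrices with the same bottom row differ by a translation. -/
theorem exists_T_zpow_of_row_eq {g h : Γ₁} (e : g 1 = h 1) : ∃ n : ℤ, g = T ^ n * h := by
  have h0 : g 1 0 = h 1 0 := congrFun e 0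
  have h1 : g 1 1 = h 1 1 := congrFun e 1
  have hdet := h.det_coe
  rw [det_fin_two] at hdet
  have hc : (g * h⁻¹) 1 0 = 0 := by
    simp [Matrix.SpecialLinearGroup.coe_inv, adjugate_fin_two, mul_apply, h0, h1]
    ring
  have hd : (g * h⁻¹) 1 1 = 1 := by
    simp [Matrix.SpecialLinearGroup.coe_inv, adjugate_fin_two, mul_apply, h0, h1]
    linarith
  have ha : (g * h⁻¹) 0 0 = 1 := by
    have := (g * h⁻¹).det_coe
    rw [det_fin_two, hc, hd] at this
    linarith
  refine ⟨(g * h⁻¹) 0 1, eq_mul_of_mul_inv_eq ?_⟩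
  ext i j
  fin_cases i <;> fin_cases j <;> simp only [coe_T_zpow] <;>
    simp [ha, hc, hd]

theorem mul_row (g h : Γ₁) : (g * h) 1 = (g 1) ᵥ* (h : Matrix (Fin 2) (Fin 2) ℤ) := by
  funext j
  simp [vecMul, dotProduct, Matrix.mul_apply]

theorem vecMul_cancel (v : Fin 2 → ℤ) (g : Γ₁) :
    (v ᵥ* (g : Matrix (Fin 2) (Fin 2) ℤ)) ᵥ* ((g⁻¹ : Γ₁) : Matrix (Fin 2) (Fin 2) ℤ) = v := by
  rw [vecMul_vecMul, ← Matrix.SpecialLinearGroup.coe_mul, mul_inv_cancel,
    Matrix.SpecialLinearGroup.coe_one, vecMul_one]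

/-! ## Terms -/

/-- The term of the row `v`. -/
def term (m : ℕ) (k : ℤ) (v : Fin 2 → ℤ) : ℍ → ℂ := kernel m ∣[k] lift v

theorem kernel_slash_eq_of_row {m : ℕ} {k : ℤ} {g h : Γ₁} (e : g 1 = h 1) :
    kernel m ∣[k] g = kernel m ∣[k] h := by
  obtain ⟨n, rfl⟩ := exists_T_zpow_of_row_eq e
  funext z
  rw [ModularForm.SL_slash_apply, ModularForm.SL_slash_apply, mul_smul, kernel_T_zpow_smul,
    ModularGroup.denom_apply, ModularGroup.denom_apply, congrFun e 0, congrFun e 1]

theorem kernel_slash (m : ℕ) (k : ℤ) (g : Γ₁) : kernel m ∣[k] g = term m k (g 1) :=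
  kernel_slash_eq_of_row (lift_row (row_coprime g)).symm

theorem term_slash (m : ℕ) (k : ℤ) {v : Fin 2 → ℤ} (hv : IsCoprime (v 0) (v 1)) (g : Γ₁) :
    term m k v ∣[k] g = term m k (v ᵥ* (g : Matrix (Fin 2) (Fin 2) ℤ)) := by
  rw [term, ← SlashAction.slash_mul, kernel_slash, mul_row, lift_row hv]

theorem term_apply (m : ℕ) (k : ℤ) {v : Fin 2 → ℤ} (hv : IsCoprime (v 0) (v 1)) (z : ℍ) :
    term m k v z = kernel m (lift v • z) * eisSummand k v z := by
  rw [term, ModularForm.SL_slash_apply, ModularGroup.denom_apply, eisSummand, lift_row hv]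

theorem norm_term_le (m : ℕ) (k : ℤ) {v : Fin 2 → ℤ} (hv : IsCoprime (v 0) (v 1)) (z : ℍ) :
    ‖term m k v z‖ ≤ ‖eisSummand k v z‖ := by
  rw [term_apply m k hv, norm_mul]
  exact mul_le_of_le_one_left (norm_nonneg _) (norm_kernel_le_one _ _)

theorem mdiff_term (m : ℕ) (k : ℤ) (v : Fin 2 → ℤ) : MDiff (term m k v) :=
  (mdiff_kernel m).slash k _

/-- The coprime pairs `(c, d)` with `N ∣ c`. -/
def rows (N : ℕ) : Set (Fin 2 → ℤ) := {v | IsCoprime (v 0) (v 1) ∧ (N : ℤ) ∣ v 0}

theorem mem_Gamma0_iff {N : ℕ} {g : Γ₁} : g ∈ Gamma0 N ↔ (N : ℤ) ∣ g 1 0 := by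
  rw [Gamma0_mem, ZMod.intCast_zmod_eq_zero_iff_dvd]

theorem vecMul_mem_rows {N : ℕ} {v : Fin 2 → ℤ} (hv : v ∈ rows N) {g : Γ₁} (hg : g ∈ Gamma0 N) :
    v ᵥ* (g : Matrix (Fin 2) (Fin 2) ℤ) ∈ rows N := by
  refine ⟨hv.1.vecMulSL g, ?_⟩
  simp only [vecMul, vec2_dotProduct]
  exact dvd_add (hv.2.mul_right _) ((mem_Gamma0_iff.1 hg).mul_left _)

/-- Right multiplication by `g ∈ Γ₀(N)` on the rows. -/
def rowsEquiv {N : ℕ} {g : Γ₁} (hg : g ∈ Gamma0 N) : rows N ≃ rows N where
  toFun v := ⟨v.1 ᵥ* (g : Matrix (Fin 2) (Fin 2) ℤ), vecMul_mem_rows v.2 hg⟩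
  invFun v := ⟨v.1 ᵥ* ((g⁻¹ : Γ₁) : Matrix (Fin 2) (Fin 2) ℤ), vecMul_mem_rows v.2 (inv_mem hg)⟩
  left_inv v := Subtype.ext (vecMul_cancel v.1 g)
  right_inv v := Subtype.ext (by simpa only [inv_inv] using vecMul_cancel v.1 g⁻¹)

/-! ## The series -/

/-- The Poincaré series. -/
def series (N m : ℕ) (k : ℤ) (z : ℍ) : ℂ := ∑' v : rows N, term m k v z

variable {N m : ℕ} {k : ℤ}

theorem summable_norm_term (hk : 3 ≤ k) (z : ℍ) :
    Summable fun v : rows N => ‖term m k v z‖ :=
  ((EisensteinSeries.summable_norm_eisSummand hk z).subtype _).of_nonneg_of_le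
    (fun _ => norm_nonneg _) fun v => norm_term_le m k v.2.1 z

theorem series_slash_apply (g : Γ₁) (z : ℍ) :
    (series N m k ∣[k] g) z =
      ∑' v : rows N, term m k (v.1 ᵥ* (g : Matrix (Fin 2) (Fin 2) ℤ)) z := by
  rw [ModularForm.SL_slash_apply, series, ← tsum_mul_right]
  refine tsum_congr fun v => ?_
  rw [← term_slash m k v.2.1, ModularForm.SL_slash_apply]

theorem series_slash {g : Γ₁} (hg : g ∈ Gamma0 N) : series N m k ∣[k] g = series N m k := by
  funext z
  rw [series_slash_apply, series]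
  exact (rowsEquiv hg).tsum_eq fun v => term m k v.1 z

theorem mdiff_series (hk : 3 ≤ k) : MDiff (series N m k) := by
  have hk' : (2 : ℝ) < k := by norm_cast
  have hsum : Summable fun v : rows N => ‖v.1‖ ^ (-(k : ℝ)) :=
    (EisensteinSeries.summable_one_div_norm_rpow hk').subtype _
  have hlu : TendstoLocallyUniformly (fun (s : Finset (rows N)) (z : ℍ) => ∑ v ∈ s, term m k v z)
      (series N m k) atTop := by
    rw [tendstoLocallyUniformly_iff_forall_isCompact]
    intro K hK
    obtain ⟨A, B, hB, hAB⟩ := subset_verticalStrip_of_isCompact hK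
    refine (tendstoUniformlyOn_tsum (hu := hsum.mul_left <|
      EisensteinSeries.r ⟨⟨A, B⟩, hB⟩ ^ (-k : ℝ)) fun v z hz => ?_).mono hAB
    refine (norm_term_le m k v.2.1 z).trans ?_
    simpa only [eisSummand, norm_zpow, ← Real.rpow_intCast, Int.cast_neg] using
      EisensteinSeries.summand_bound_of_mem_verticalStrip (by positivity) v.1 hB hz
  intro τ
  rw [mdifferentiableAt_iff]
  refine DifferentiableOn.differentiableAt ?_ (isOpen_upperHalfPlaneSet.mem_nhds τ.2)
  have h2 : TendstoLocallyUniformlyOn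
      (fun (s : Finset (rows N)) => (fun z : ℍ => ∑ v ∈ s, term m k v z) ∘ ofComplex)
      (series N m k ∘ ofComplex) atTop {w : ℂ | 0 < w.im} := by
    rw [← upperHalfPlaneSet, ← range_coe, ← Set.image_univ]
    apply TendstoLocallyUniformlyOn.comp (s := ⊤) _ _ _
      (OpenPartialHomeomorph.continuousOn_symm _)
    · simpa only [Set.top_eq_univ, tendstoLocallyUniformlyOn_univ] using hlu
    · simp only [Topology.IsOpenEmbedding.toOpenPartialHomeomorph_target, Set.top_eq_univ,
        Set.mapsTo_range_iff, Set.mem_univ, forall_const]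
  refine h2.differentiableOn (Eventually.of_forall fun s => ?_) isOpen_upperHalfPlaneSet
  exact DifferentiableOn.fun_sum fun v _ => UpperHalfPlane.mdifferentiable_iff.1 (mdiff_term m k v)

/-! ## Decay at every cusp -/

/-- The part of the Eisenstein series with `c ≠ 0`. -/
def offTerm (k : ℤ) (z : ℍ) (v : Fin 2 → ℤ) : ℝ := if v 0 = 0 then 0 else ‖eisSummand k v z‖

theorem summable_offTerm (hk : 3 ≤ k) (z : ℍ) : Summable (offTerm k z) :=
  (EisensteinSeries.summable_norm_eisSummand hk z).of_nonneg_of_le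
    (fun v => by unfold offTerm; split <;> positivity)
    fun v => by unfold offTerm; split <;> simp

theorem tsum_offTerm_vadd (z : ℍ) (n : ℤ) :
    ∑' v, offTerm k ((n : ℝ) +ᵥ z) v = ∑' v, offTerm k z v := by
  let e : (Fin 2 → ℤ) ≃ (Fin 2 → ℤ) :=
    { toFun := fun v => ![v 0, v 1 + n * v 0]
      invFun := fun v => ![v 0, v 1 - n * v 0]
      left_inv := fun v => by ext i; fin_cases i <;> simp
      right_inv := fun v => by ext i; fin_cases i <;> simp }
  rw [← e.tsum_eq (offTerm k z)]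
  refine tsum_congr fun v => ?_
  simp only [offTerm, eisSummand, coe_vadd, e, Equiv.coe_fn_mk, Matrix.cons_val_zero,
    Matrix.cons_val_one]
  push_cast
  ring_nf

theorem tsum_offTerm_le (hk : 3 ≤ k) :
    ∃ C, 0 ≤ C ∧ ∀ z : ℍ, 2 ≤ z.im → ∑' v, offTerm k z v ≤ C / √z.im := by
  set p : ℝ := k - 1 / 2 with hp
  have hk3 : (3 : ℝ) ≤ k := by exact_mod_cast hk
  have hp2 : 2 < p := by linarith
  set R := EisensteinSeries.r ⟨⟨1, 2⟩, two_pos⟩
  have hR : 0 < R := EisensteinSeries.r_pos _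
  have hsum := (EisensteinSeries.summable_one_div_norm_rpow hp2).mul_left (R ^ (-p))
  refine ⟨∑' v : Fin 2 → ℤ, R ^ (-p) * ‖v‖ ^ (-p), tsum_nonneg fun v => by positivity,
    fun z hz => ?_⟩
  obtain ⟨n, hn⟩ := ModularGroup_T_zpow_mem_verticalStrip z (N := 1) one_pos
  rw [modular_T_zpow_smul] at hn
  rw [← tsum_offTerm_vadd (k := k) z (((1 : ℕ) : ℤ) * n)]
  set w := (((((1 : ℕ) : ℤ) * n : ℤ)) : ℝ) +ᵥ z with hw
  have hwim : w.im = z.im := vadd_im _ _
  have hmem : w ∈ verticalStrip (1 : ℝ) 2 := by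
    refine ⟨?_, hwim.symm ▸ hz⟩
    simpa [hw] using hn.1
  rw [div_eq_mul_inv, ← tsum_mul_right]
  refine (summable_offTerm hk w).tsum_le_tsum (fun v => ?_) (hsum.mul_right _)
  unfold offTerm
  split
  · positivity
  rename_i hv
  have hy : (0 : ℝ) < z.im := z.im_pos
  have hd : z.im ≤ ‖(v 0 : ℂ) * w + v 1‖ := by
    refine le_trans ?_ (Complex.abs_im_le_norm _)
    simp only [add_im, mul_im, intCast_re, intCast_im, zero_mul, add_zero, coe_im, hwim]
    rw [abs_mul, abs_of_pos hy]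
    exact le_mul_of_one_le_left hy.le (by exact_mod_cast Int.one_le_abs hv)
  have hd0 : 0 < ‖(v 0 : ℂ) * w + v 1‖ := hy.trans_le hd
  rw [eisSummand, norm_zpow, ← Real.rpow_intCast, Int.cast_neg,
    show -(k : ℝ) = -p + -(1 / 2 : ℝ) by rw [hp]; ring, Real.rpow_add hd0,
    Real.sqrt_eq_rpow, ← Real.rpow_neg hy.le]
  refine mul_le_mul ?_ (Real.rpow_le_rpow_of_nonpos hy hd (by norm_num)) (by positivity)
    (by positivity)
  exact EisensteinSeries.summand_bound_of_mem_verticalStrip (by linarith) v two_pos hmem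

theorem norm_series_slash_le (hk : 3 ≤ k) (g : Γ₁) (z : ℍ) :
    ‖(series N m k ∣[k] g) z‖ ≤
      2 * Real.exp (-(2 * π * m * z.im)) + ∑' v, offTerm k z v := by
  classical
  set g' : (Fin 2 → ℤ) → ℝ := fun v =>
    (if v ∈ ({![0, 1], ![0, -1]} : Finset (Fin 2 → ℤ)) then Real.exp (-(2 * π * m * z.im))
      else 0) + offTerm k z v with hg'
  have hfin : Summable fun v : Fin 2 → ℤ =>
      if v ∈ ({![0, 1], ![0, -1]} : Finset (Fin 2 → ℤ)) then Real.exp (-(2 * π * m * z.im))
      else 0 := summable_of_hasFiniteSupport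
    ((Finset.finite_toSet ({![0, 1], ![0, -1]} : Finset (Fin 2 → ℤ))).subset fun v hv => by
      by_contra h
      exact hv (if_neg h))
  have hs' : Summable g' := hfin.add (summable_offTerm hk z)
  set ι : rows N → (Fin 2 → ℤ) := fun v => v.1 ᵥ* (g : Matrix (Fin 2) (Fin 2) ℤ) with hι
  have hinj : Function.Injective ι := fun a b h => by
    have := congrArg (fun u => u ᵥ* ((g⁻¹ : Γ₁) : Matrix (Fin 2) (Fin 2) ℤ)) h
    simp only [hι, vecMul_cancel] at this
    exact Subtype.ext this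
  have hle : ∀ v : rows N, ‖term m k (ι v) z‖ ≤ g' (ι v) := by
    intro v
    have hcop : IsCoprime (ι v 0) (ι v 1) := v.2.1.vecMulSL g
    by_cases h0 : ι v 0 = 0
    · have hu : IsUnit (ι v 1) := isCoprime_zero_left.1 (h0 ▸ hcop)
      have hmem : ι v ∈ ({![0, 1], ![0, -1]} : Finset (Fin 2 → ℤ)) := by
        rcases Int.isUnit_iff.1 hu with h | h <;>
          simp only [Finset.mem_insert, Finset.mem_singleton]
        · exact .inl (by ext i; fin_cases i <;> simp [h0, h])
        · exact .inr (by ext i; fin_cases i <;> simp [h0, h])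
      have hden : denom (lift (ι v)) z = (ι v 1 : ℂ) := by
        rw [ModularGroup.denom_apply, lift_row hcop, h0]
        simp
      have him : (lift (ι v) • z).im = z.im := by
        rw [ModularGroup.im_smul_eq_div_normSq, hden]
        rcases Int.isUnit_iff.1 hu with h | h <;> simp [h]
      simp only [hg', offTerm, if_pos h0, if_pos hmem, add_zero]
      rw [term_apply m k hcop, norm_mul,
        norm_kernel, him]
      refine mul_le_of_le_one_right (Real.exp_nonneg _) (le_of_eq ?_)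
      rcases Int.isUnit_iff.1 hu with h | h <;> simp [eisSummand, h0, h]
    · simp only [hg', offTerm, if_neg h0]
      refine le_add_of_nonneg_of_le ?_ (norm_term_le m k hcop z)
      split <;> positivity
  have hs : Summable fun v : rows N => ‖term m k (ι v) z‖ :=
    (hs'.comp_injective hinj).of_nonneg_of_le (fun _ => norm_nonneg _) hle
  rw [series_slash_apply]
  calc ‖∑' v : rows N, term m k (ι v) z‖ ≤ ∑' v : rows N, ‖term m k (ι v) z‖ :=
        norm_tsum_le_tsum_norm hs
    _ ≤ ∑' u, g' u := hs.tsum_le_tsum_of_inj ι hinj (fun u _ => by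
          simp only [hg', offTerm]; split <;> split <;> positivity) hle hs'
    _ = _ := by
      rw [hg', hfin.tsum_add (summable_offTerm hk z), tsum_eq_sum (s := {![0, 1], ![0, -1]})
        fun u hu => if_neg hu, Finset.sum_ite_mem, Finset.inter_self, Finset.sum_const,
        Finset.card_pair (fun h => by simpa using congrFun h 1), nsmul_eq_mul]
      norm_num

theorem isZeroAtImInfty_series_slash (hm : m ≠ 0) (hk : 3 ≤ k) (g : Γ₁) :
    IsZeroAtImInfty (series N m k ∣[k] g) := by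
  obtain ⟨C, hC0, hC⟩ := tsum_offTerm_le hk
  rw [IsZeroAtImInfty, ZeroAtFilter]
  refine squeeze_zero_norm' (a := fun z : ℍ => 2 * Real.exp (-(2 * π * m * z.im)) + C / √z.im) ?_ ?_
  · filter_upwards [(atImInfty_mem _).2 ⟨2, fun z hz => hz⟩] with z hz
    exact (norm_series_slash_le hk g z).trans (add_le_add le_rfl (hC z hz))
  · have him : Tendsto (fun z : ℍ => z.im) atImInfty atTop := tendsto_comap
    have h1 : Tendsto (fun z : ℍ => Real.exp (-(2 * π * m * z.im))) atImInfty (𝓝 0) :=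
      Real.tendsto_exp_atBot.comp (tendsto_neg_atTop_atBot.comp
        (him.const_mul_atTop (by positivity)))
    have h2 : Tendsto (fun z : ℍ => C / √z.im) atImInfty (𝓝 0) :=
      (Real.tendsto_sqrt_atTop.comp him).const_div_atTop C
    simpa using (h1.const_mul 2).add h2

/-- The Poincaré series as a cusp form. -/
def cuspForm (N : ℕ) [NeZero N] {k : ℤ} (hk : 3 ≤ k) {m : ℕ} (hm : m ≠ 0) :
    CuspForm (Gamma0 N) k where
  toFun := series N m k
  slash_action_eq' A hA := by
    obtain ⟨g, hg, rfl⟩ := hA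
    exact series_slash hg
  holo' := mdiff_series hk
  zero_at_cusps' {c} hc := by
    rw [Subgroup.IsArithmetic.isCusp_iff_isCusp_SL2Z] at hc
    rw [OnePoint.isZeroAt_iff_forall_SL2Z hc]
    exact fun g _ => isZeroAtImInfty_series_slash hm hk g

theorem cuspForm_apply [NeZero N] (hk : 3 ≤ k) (hm : m ≠ 0) (z : ℍ) :
    cuspForm N hk hm z = series N m k z := rfl

end FA.Poincare

end
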