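import Fermat.Agent.Poincare.Unfold
import Mathlib.MeasureTheory.Measure.Lebesgue.Complex
import Mathlib.MeasureTheory.Integral.Prod

/-!
# Integrals over the strip

The invariant integral over the strip is the iterated integral with weight `y ^ (-2)`.
-/

set_option autoImplicit false

noncomputable section

namespace FA.Poincare

open UpperHalfPlane hiding I
open MeasureTheory Set
open scoped ENNReal

/-- The strip in coordinates. -/
def stripRect : Set (ℝ × ℝ) := Ico (-(1 / 2)) (1 / 2) ×ˢ Ioi 0

/-- The density of the invariant measure. -/
def density (w : ℂ) : NNReal := (1 / ‖w.im‖₊) ^ 2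

theorem measurable_density : Measurable density := by unfold density; fun_prop

theorem map_coe_volume :
    Measure.map UpperHalfPlane.coe (volume : Measure ℍ) =
      ((volume : Measure ℂ).restrict (range UpperHalfPlane.coe)).withDensity
        fun w => (density w : ℝ≥0∞) := by
  ext s hs
  rw [Measure.map_apply measurable_coe hs, volume_eq_lintegral, withDensity_apply _ hs,
    Measure.restrict_restrict hs, image_preimage_eq_inter_range]
  rfl

theorem ofComplex_coe_point {x y : ℝ} (hy : 0 < y) :
    (ofComplex (x + y * Complex.I) : ℂ) = x + y * Complex.I := by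
  rw [ofComplex_apply_of_im_pos (by simpa using hy)]

theorem preimage_stripRect :
    Complex.measurableEquivRealProd ⁻¹' stripRect =
      {w : ℂ | w.re ∈ Ico (-(1 / 2) : ℝ) (1 / 2)} ∩ range UpperHalfPlane.coe := by
  ext w
  simp [stripRect, Complex.measurableEquivRealProd, range_coe, upperHalfPlaneSet, and_comm]

theorem measurableSet_stripRe : MeasurableSet {w : ℂ | w.re ∈ Ico (-(1 / 2) : ℝ) (1 / 2)} :=
  measurableSet_Ico.preimage Complex.continuous_re.measurable

theorem strip_eq_preimage :
    strip = UpperHalfPlane.coe ⁻¹' {w : ℂ | w.re ∈ Ico (-(1 / 2) : ℝ) (1 / 2)} := rfl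

variable {E : Type*} [NormedAddCommGroup E] [NormedSpace ℝ E]

/-- The integrand in coordinates. -/
def pushRect (F : ℍ → E) (p : ℝ × ℝ) : E := (p.2 ^ 2)⁻¹ • F (ofComplex (p.1 + p.2 * Complex.I))

theorem smul_density (F : ℍ → E) (w : ℂ) :
    density w • F (ofComplex w) = pushRect F (Complex.measurableEquivRealProd w) := by
  simp [pushRect, density, NNReal.smul_def, Complex.measurableEquivRealProd, Complex.re_add_im,
    inv_pow]

theorem integrableOn_strip_iff (F : ℍ → E) :
    IntegrableOn F strip ↔ IntegrableOn (pushRect F) stripRect := by
  rw [← Complex.volume_preserving_equiv_real_prod.integrableOn_comp_preimage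
    Complex.measurableEquivRealProd.measurableEmbedding, preimage_stripRect, IntegrableOn,
    IntegrableOn, ← Measure.restrict_restrict measurableSet_stripRe, strip_eq_preimage]
  have hF : F = (F ∘ ofComplex) ∘ UpperHalfPlane.coe := by
    funext z
    simp
  conv_lhs => rw [hF]
  rw [← measurableEmbedding_coe.integrable_map_iff, ← measurableEmbedding_coe.restrict_map,
    map_coe_volume, restrict_withDensity measurableSet_stripRe,
    integrable_withDensity_iff_integrable_smul measurable_density]
  exact integrable_congr (Filter.Eventually.of_forall fun w => smul_density F w)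

theorem setIntegral_strip (F : ℍ → E) :
    ∫ z in strip, F z = ∫ p in stripRect, pushRect F p := by
  rw [← Complex.volume_preserving_equiv_real_prod.setIntegral_preimage_emb
    Complex.measurableEquivRealProd.measurableEmbedding, preimage_stripRect,
    ← Measure.restrict_restrict measurableSet_stripRe, strip_eq_preimage]
  have hF : F = (F ∘ ofComplex) ∘ UpperHalfPlane.coe := by
    funext z
    simp
  conv_lhs => rw [hF]
  simp only [Function.comp_def]
  rw [← measurableEmbedding_coe.setIntegral_map (fun w => F (ofComplex w)), map_coe_volume,
    restrict_withDensity measurableSet_stripRe,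
    integral_withDensity_eq_integral_smul measurable_density]
  exact integral_congr_ae (Filter.Eventually.of_forall fun w => smul_density F w)

theorem setIntegral_strip_eq_iterated (F : ℍ → E) (hF : IntegrableOn F strip) :
    ∫ z in strip, F z =
      ∫ y in Ioi (0 : ℝ), ∫ x in Ico (-(1 / 2) : ℝ) (1 / 2), pushRect F (x, y) := by
  have h := (integrableOn_strip_iff F).1 hF
  rw [setIntegral_strip, stripRect]
  rw [IntegrableOn, stripRect, Measure.volume_eq_prod, ← Measure.prod_restrict] at h
  rw [Measure.volume_eq_prod, ← Measure.prod_restrict]
  exact integral_prod_symm _ h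

end FA.Poincare

end
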