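import Fermat.Agent.Poincare.Series
import Fermat.Agent.Petersson.Measure

/-!
# Unfolding

Both the strip `-1/2 ≤ re z < 1/2` and the union of the translates of the standard fundamental
domain by one matrix for each coprime pair `(c, d)` up to sign are fundamental domains for the
translations, so a periodic function has the same integral over both.
-/

set_option autoImplicit false

noncomputable section

namespace FA.Poincare

open UpperHalfPlane hiding I
open MeasureTheory ModularGroup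
open scoped MatrixGroups Modular Pointwise

local notation "Γ₁" => SL(2, ℤ)

/-- The strip. -/
def strip : Set ℍ := {z | z.re ∈ Set.Ico (-(1 / 2) : ℝ) (1 / 2)}

theorem measurableSet_strip : MeasurableSet strip :=
  measurableSet_Ico.preimage continuous_re.measurable

theorem isFundamentalDomain_strip :
    IsFundamentalDomain (Subgroup.zpowers (T : Γ₁)) strip (volume : Measure ℍ) := by
  refine .mk' measurableSet_strip.nullMeasurableSet fun z => ?_
  have key : ∀ n : ℤ, (⟨T ^ n, n, rfl⟩ : Subgroup.zpowers (T : Γ₁)) • z ∈ strip ↔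
      n = -⌊z.re + 1 / 2⌋ := by
    intro n
    rw [Subgroup.smul_def]
    show (T ^ n • z).re ∈ Set.Ico (-(1 / 2) : ℝ) (1 / 2) ↔ _
    rw [re_T_zpow_smul, Set.mem_Ico, eq_comm, neg_eq_iff_eq_neg, Int.floor_eq_iff, Int.cast_neg]
    constructor <;> rintro ⟨h₁, h₂⟩ <;> constructor <;> linarith
  refine ⟨⟨T ^ (-⌊z.re + 1 / 2⌋), _, rfl⟩, (key _).2 rfl, ?_⟩
  rintro ⟨g, n, rfl⟩ h
  simp [(key n).1 h]

/-- The coprime pairs. -/
def pairs : Set (Fin 2 → ℤ) := {v | IsCoprime (v 0) (v 1)}

/-- One coprime pair of each sign. -/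
def posPairs : Set (Fin 2 → ℤ) :=
  {v | IsCoprime (v 0) (v 1) ∧ (0 < v 0 ∨ v 0 = 0 ∧ 0 < v 1)}

theorem neg_mem_pairs {v : Fin 2 → ℤ} (hv : v ∈ pairs) : -v ∈ pairs :=
  IsCoprime.neg_neg hv

theorem neg_mem_posPairs_iff {v : Fin 2 → ℤ} (hv : v ∈ pairs) :
    -v ∈ posPairs ↔ v ∉ posPairs := by
  have hne : ¬(v 0 = 0 ∧ v 1 = 0) := fun h => by
    rw [pairs, Set.mem_ofPred_eq, h.1, h.2] at hv
    exact not_isCoprime_zero_zero hv
  simp only [posPairs, Set.mem_ofPred_eq, Pi.neg_apply]
  exact ⟨fun h h' => by omega, fun h => ⟨IsCoprime.neg_neg hv, by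
    by_contra h'
    exact h ⟨hv, by omega⟩⟩⟩

theorem neg_row (g : Γ₁) : (-g) 1 = -(g 1) := rfl

/-- The union of the translates. -/
def transDom : Set ℍ := ⋃ v : posPairs, lift v.1 • fdo

theorem eq_of_mem_translate {v w : posPairs} {a b : ℤ} {z : ℍ}
    (hv : z ∈ (T ^ a * lift v.1) • fdo) (hw : z ∈ (T ^ b * lift w.1) • fdo) : a = b ∧ v = w := by
  have hr : ∀ (n : ℤ) (u : posPairs), (T ^ n * lift u.1) 1 = u.1 := fun n u => by
    have h0 := lift_row u.2.1
    funext j
    rw [show (T ^ n * lift u.1) 1 j = (lift u.1) 1 j by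
      fin_cases j <;> simp, h0]
  have hwv : w.1 = v.1 := by
    rcases Petersson.eq_or_eq_neg_of_mem hv hw with e | e
    · simpa [hr] using congrArg (fun g : Γ₁ => g 1) e.symm
    · have := congrArg (fun g : Γ₁ => g 1) e
      simp only [neg_row, hr] at this
      exact absurd v.2 ((neg_mem_posPairs_iff (v := v.1) v.2.1).1 (by
        rw [this, neg_neg]; exact w.2))
  have hvw : v = w := Subtype.ext hwv.symm
  subst hvw
  refine ⟨?_, rfl⟩
  rcases Petersson.eq_or_eq_neg_of_mem hv hw with e | e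
  · have := congrArg (fun g : Γ₁ => g 0 1) (mul_right_cancel e)
    simpa [coe_T_zpow] using this
  · rw [← neg_mul] at e
    have := congrArg (fun g : Γ₁ => g 0 0) (mul_right_cancel e)
    simp [coe_T_zpow] at this

theorem measurableSet_lift_smul (v : Fin 2 → ℤ) : MeasurableSet (lift v • fdo : Set ℍ) :=
  Petersson.measurableSet_smul_fdo _

theorem pairwise_disjoint_translate :
    Pairwise (Function.onFun Disjoint fun v : posPairs => lift v.1 • fdo) := fun v w hvw => by
  refine Set.disjoint_left.2 fun z hv hw =>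
    hvw (eq_of_mem_translate (z := z) (a := 0) (b := 0) ?_ ?_).2
  all_goals simpa

theorem isFundamentalDomain_transDom :
    IsFundamentalDomain (Subgroup.zpowers (T : Γ₁)) transDom (volume : Measure ℍ) := by
  refine ⟨(MeasurableSet.iUnion fun v => measurableSet_lift_smul _).nullMeasurableSet, ?_, ?_⟩
  · have hnull : volume (⋃ h : Γ₁, h • (fd \ fdo) : Set ℍ) = 0 :=
      measure_iUnion_null fun h => by rw [measure_smul]; exact Petersson.volume_fd_diff_fdo
    rw [Filter.eventually_iff, mem_ae_iff]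
    refine measure_mono_null (fun z hz => ?_) hnull
    obtain ⟨h, hh⟩ := exists_smul_mem_fd z
    refine Set.mem_iUnion.mpr ⟨h⁻¹, ?_⟩
    rw [Set.mem_smul_set_iff_inv_smul_mem, inv_inv]
    refine ⟨hh, fun ho => hz ?_⟩
    obtain ⟨g, hg, hgz⟩ : ∃ g : Γ₁, g 1 ∈ posPairs ∧ g⁻¹ • z ∈ fdo := by
      by_cases hp : (h⁻¹ : Γ₁) 1 ∈ posPairs
      · exact ⟨h⁻¹, hp, by rwa [inv_inv]⟩
      · refine ⟨-h⁻¹, ?_, ?_⟩
        · rw [neg_row, neg_mem_posPairs_iff (row_coprime _)]
          exact hp
        · rw [show (-h⁻¹)⁻¹ = -h from inv_eq_of_mul_eq_one_right (by simp),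
            Petersson.neg_smul_sl]
          exact ho
    obtain ⟨n, hn⟩ := exists_T_zpow_of_row_eq (g := lift (g 1)) (h := g) (lift_row hg.1)
    refine ⟨⟨T ^ n, n, rfl⟩, Set.mem_iUnion.2 ⟨⟨g 1, hg⟩, ?_⟩⟩
    rw [Set.mem_smul_set_iff_inv_smul_mem, Subgroup.smul_def, hn, smul_smul, mul_inv_rev,
      mul_assoc, inv_mul_cancel, mul_one]
    exact hgz
  · rintro ⟨_, a, rfl⟩ ⟨_, b, rfl⟩ hab
    refine (Set.disjoint_left.mpr fun z ha hb => hab ?_).aedisjoint
    simp only [transDom, Set.smul_set_iUnion, Set.mem_iUnion, Subgroup.smul_def] at ha hb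
    obtain ⟨v, hv⟩ := ha
    obtain ⟨w, hw⟩ := hb
    rw [smul_smul] at hv hw
    have := (eq_of_mem_translate hv hw).1
    exact Subtype.ext (by simp [this])

variable {E : Type*} [NormedAddCommGroup E]

omit [NormedAddCommGroup E] in
theorem smul_eq_of_row {F : ℍ → E} (hF : ∀ (n : ℤ) z, F (T ^ n • z) = F z) {g h : Γ₁}
    (e : g 1 = h 1) (z : ℍ) : F (g • z) = F (h • z) := by
  obtain ⟨n, rfl⟩ := exists_T_zpow_of_row_eq e
  rw [mul_smul, hF]

omit [NormedAddCommGroup E] in
theorem lift_neg_smul {F : ℍ → E} (hF : ∀ (n : ℤ) z, F (T ^ n • z) = F z) {v : Fin 2 → ℤ}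
    (hv : v ∈ pairs) (z : ℍ) : F (lift (-v) • z) = F (lift v • z) := by
  rw [smul_eq_of_row hF (g := lift (-v)) (h := -lift v)
    (by rw [neg_row, lift_row hv, lift_row (neg_mem_pairs hv)]), Petersson.neg_smul_sl]

/-- Negation exchanges the two signs. -/
def negPosEquiv : {v : pairs // v.1 ∈ posPairs} ≃ {v : pairs // v.1 ∉ posPairs} where
  toFun v := ⟨⟨-v.1.1, neg_mem_pairs v.1.2⟩, fun h => (neg_mem_posPairs_iff v.1.2).1 h v.2⟩
  invFun v := ⟨⟨-v.1.1, neg_mem_pairs v.1.2⟩, (neg_mem_posPairs_iff v.1.2).2 v.2⟩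
  left_inv v := by ext; simp
  right_inv v := by ext; simp

variable [NormedSpace ℝ E]

theorem setIntegral_lift_smul (F : ℍ → E) (v : Fin 2 → ℤ) :
    ∫ z in fdo, F (lift v • z) = ∫ z in lift v • fdo, F z := by
  rw [← Set.image_smul, (measurePreserving_smul (lift v) volume).setIntegral_image_emb
    (measurableEmbedding_const_smul _)]

/-- **Unfolding.** -/
theorem hasSum_unfold {F : ℍ → E} (hF : ∀ (n : ℤ) z, F (T ^ n • z) = F z)
    (hint : IntegrableOn F strip) :
    HasSum (fun v : pairs => ∫ z in fdo, F (lift v.1 • z)) ((2 : ℕ) • ∫ z in strip, F z) := by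
  have hinv : ∀ (g : Subgroup.zpowers (T : Γ₁)) (z : ℍ), F (g • z) = F z := by
    rintro ⟨_, n, rfl⟩ z
    exact hF n z
  have hD : IntegrableOn F transDom :=
    (isFundamentalDomain_transDom.integrableOn_iff isFundamentalDomain_strip hinv).2 hint
  have h := hasSum_integral_iUnion (fun v : posPairs => measurableSet_lift_smul v.1)
    pairwise_disjoint_translate hD
  rw [← transDom, isFundamentalDomain_transDom.setIntegral_eq isFundamentalDomain_strip hinv] at h
  simp only [← setIntegral_lift_smul] at h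
  set s : Set pairs := {v | v.1 ∈ posPairs}
  let e : {v : pairs // v.1 ∈ posPairs} ≃ posPairs :=
    { toFun := fun v => ⟨v.1.1, v.2⟩
      invFun := fun v => ⟨⟨v.1, v.2.1⟩, v.2⟩
      left_inv := fun _ => rfl
      right_inv := fun _ => rfl }
  have h1 : HasSum ((fun v : pairs => ∫ z in fdo, F (lift v.1 • z)) ∘ (Subtype.val : s → pairs))
      (∫ z in strip, F z) := e.hasSum_iff.2 h
  have h2 : HasSum ((fun v : pairs => ∫ z in fdo, F (lift v.1 • z)) ∘
      (Subtype.val : (sᶜ : Set pairs) → pairs)) (∫ z in strip, F z) := by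
    refine negPosEquiv.hasSum_iff.1 ?_
    refine h1.congr_fun fun v => ?_
    exact (setIntegral_congr_fun isOpen_fdo.measurableSet fun z _ =>
      lift_neg_smul hF v.1.2 z)
  rw [two_nsmul]
  exact h1.add_compl h2

end FA.Poincare

end
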